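/-
GATE-Z / GZ-LOCP, leaf (A5P) of helper12's RULING-3 (board 6038) (helper99):
**"A5 is empty at level `p`", `c`-form** — building block of (b)/BOB.

`q ∥ N`, `A ∣ q`, `u` an `m`-divisible unit of `F_N`, unit for BOTH Gauss valuations `w₁`,
`w₂ = w₁ ∘ W_q` (`GB/A/FP.BothUnit`), whose two reductions `red_i u ∈ FresBar N A` satisfy
`m ∣ c · ord_Q (red_i u)` at every place `Q` (the conclusion of `NodeHypC h A m c`, helper26 6026).
If the residue function field `FresBar N A` has genus `0` — TRUE at `N = p` (`= 1 * p`), where it is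
`k(j̃)` — then `red_i(u)^c = a_i · w_i^m` (`a_i` constants); lifting `(w₁, w₂)` simultaneously to
`x ∈ Rw₁ ∩ Rw₂` (strong approximation, `GS/Nodal/Inst/Good.pairSurj_FN`), `u^c / x^m` is an
ADMISSIBLE Kummer generator (both reductions constant) of `c • [u]`.  Hence

  `c • [u] ∈ M0mod N A h m`.

No hypothesis on `m` (any `m ≠ 0`, in particular `m = r ^ k` with `r ∈ {2, 3}` and `q ∣ m` allowed).

* `isPrincipal_of_degree_eq_zero`, `exists_const_mul_pow` : genus `0` ⟹ degree-zero divisors are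
  principal; `m ∣ c · div f ⟹ f ^ c = a · w ^ m` (abstract, `RR`-frame);
* `genusRR_FN_one`, `genusRR_FresBar_one_mul` : `g(X₀(1)) = 0` and `g(FresBar (1 * p) A) = 0`
  (`p ≠ 2, 3`, `A ∣ p`; `GL/Genus/GenusRed`);
* `inv_mem_of_red_ne_zero`, `red_inv`, `red_pow_mul_inv_pow`, `isCstUnit_of_red_eq` : `RedData` glue
  (a function reducing to a NONZERO CONSTANT is an `IsCstUnit`);
* `kum0_pow_mul_inv_pow` : `[u ^ c / x ^ m] = c • [u]`;
* `nsmul_kum0_mem_M0mod_of_genus_zero` : **the core**, any level `q ∥ N` with `g(FresBar N A) = 0`;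
  `zsmul_kum0_mem_M0mod_of_genus_zero` : the same for `c : ℤ`;
* `nsmul_kum0_mem_M0mod_of_eq`, `zsmul_kum0_mem_M0mod_of_eq` : level `N = 1 * q`;
* **`a5p`**, `a5p_zsmul` : level `p` in the spelling of the ruling (`h : ExactDvd p p`);
* `a5p_of_node` : composition with the (unfolded) `NodeHypC h A m c`.
-/
import Fermat.Agent.GL.Genus.GenusRed
import Fermat.Agent.GS.Nodal.Inst.Good
import Fermat.Agent.GK.GenusFF
import Fermat.Agent.GJ27.RRDual.Cor43
import Fermat.Agent.GB.A.FP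
import Fermat.Agent.GS.F.Modular
import Fermat.Agent.GK.SS.CstRedInst
import Fermat.Agent.GH.KummerPic

set_option autoImplicit false
set_option linter.unusedSectionVars false
set_option linter.style.haveILetI false

noncomputable section

namespace Fermat.Agent.GZ.LocP.A5P



open AlgebraicCurve
open Fermat.Agent.RRh45 Fermat.Agent.RR Fermat.Agent.S24 Fermat.Agent.GJ.J1.InstGen

section GenusZero

variable {k F : Type*} [Field k] [Field F] [Algebra k F]
  [FiniteResidues k F] [HasPrincipalDivisors k F] [Nonempty (Place k F)]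

/-- **genus zero**: a divisor of degree zero is principal. -/
theorem isPrincipal_of_degree_eq_zero (hg : genusRR k F = 0) {D : Divisor k F}
    (hD : Divisor.degree D = 0) : Divisor.IsPrincipal D := by
  have h1 := Fermat.Agent.GJ.J1.InstGen.riemann_inequality (K := k) (F := F) D
  rw [hg, hD] at h1
  have hne : riemannRochSpace D ≠ ⊥ := by
    intro h0
    rw [h0, finrank_bot] at h1
    omega
  exact Divisor.mem_principal.1
    (Fermat.Agent.GJ27.RRDual.Cor43.mem_principal_of_degree_eq_zero_of_ne_bot hD hne)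

/-- a function without zeros and poles is a nonzero constant (`k` algebraically closed). -/
theorem exists_const_of_forall_ord_eq_zero [IsAlgClosed k] (x : F) [IsGen k x] {g : F}
    (hg0 : g ≠ 0) (h : ∀ v : Place k F, v.ord g = 0) :
    ∃ a : k, a ≠ 0 ∧ g = algebraMap k F a := by
  have halg : IsAlgebraic k g :=
    Fermat.Agent.GJ.FF.isAlgebraic_of_forall_ord_nonneg x (fun v => (h v).ge)
  have hint : IsIntegral k g := halg.isIntegral
  have hdeg : (minpoly k g).degree = 1 :=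
    IsAlgClosed.degree_eq_one_of_irreducible k (minpoly.irreducible hint)
  obtain ⟨a, ha⟩ := minpoly.mem_range_of_degree_eq_one k g hdeg
  refine ⟨a, ?_, ha.symm⟩
  rintro rfl
  rw [map_zero] at ha
  exact hg0 ha.symm

/-- **genus zero, Kummer form**: if `m ∣ c · div f` then `f ^ c` is a constant times an `m`-th
power. -/
theorem exists_const_mul_pow [IsAlgClosed k] (x : F) [IsGen k x] (hg : genusRR k F = 0) {f : F}
    (hf : f ≠ 0) {m : ℕ} (hm : m ≠ 0) (c : ℕ)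
    (hdiv : ∀ Q : Place k F, (m : ℤ) ∣ (c : ℤ) * Q.ord f) :
    ∃ (a : k) (w : F), a ≠ 0 ∧ w ≠ 0 ∧ f ^ c = algebraMap k F a * w ^ m := by
  have hm' : (m : ℤ) ≠ 0 := Int.natCast_ne_zero.2 hm
  obtain ⟨G, hG, hG0⟩ := HasPrincipalDivisors.exists_divisor (K := k) f hf
  set D : Divisor k F := G.mapRange (fun n => (c : ℤ) * n / (m : ℤ)) (by simp) with hD
  have hDv : ∀ v : Place k F, (m : ℤ) * D v = (c : ℤ) * v.ord f := by
    intro v
    rw [hD, Finsupp.mapRange_apply, hG v]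
    exact Int.mul_ediv_cancel' (hdiv v)
  have hsm : (m : ℤ) • D = (c : ℤ) • G := by
    ext v
    rw [Finsupp.smul_apply, Finsupp.smul_apply, smul_eq_mul, smul_eq_mul, hDv v, hG v]
  have hdeg : Divisor.degree D = 0 := by
    have h1 := congrArg Divisor.degree hsm
    rw [map_zsmul, map_zsmul, hG0, smul_zero, smul_eq_mul] at h1
    exact (mul_eq_zero.1 h1).resolve_left hm'
  obtain ⟨w, hw0, hw⟩ := isPrincipal_of_degree_eq_zero hg hdeg
  have hwm : w ^ m ≠ 0 := pow_ne_zero m hw0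
  have hfc : f ^ c ≠ 0 := pow_ne_zero c hf
  have hg0 : f ^ c * (w ^ m)⁻¹ ≠ 0 := mul_ne_zero hfc (inv_ne_zero hwm)
  have hord : ∀ v : Place k F, v.ord (f ^ c * (w ^ m)⁻¹) = 0 := by
    intro v
    rw [v.ord_mul hfc (inv_ne_zero hwm), v.ord_inv, ← zpow_natCast, ← zpow_natCast,
      Place.ord_zpow, Place.ord_zpow, ← hw v, hDv v]
    ring
  obtain ⟨a, ha0, ha⟩ := exists_const_of_forall_ord_eq_zero x hg0 hord
  refine ⟨a, w, ha0, hw0, ?_⟩
  rw [← ha, mul_assoc, inv_mul_cancel₀ hwm, mul_one]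

end GenusZero



open AlgebraicCurve ModularCurve IsLocalRing
open Fermat.Agent.RRh45 Fermat.Agent.RR Fermat.Agent.S24 Fermat.Agent.GJ.J1.InstGen
open Fermat.Agent.GJ.J1 Fermat.Agent.GJ.J1.Val Fermat.Agent.GK.AL Fermat.Agent.GK.CuspSep
open Fermat.Agent.GS.Nodal.Inst

attribute [local instance] finiteResidues_FN hasPrincipalDivisors_FN nonempty_place_FN
  isAlgClosed_res finiteResidues_Fres hasPrincipalDivisors_Fres nonempty_place_Fres

theorem nuTwo_one : nuTwo 1 = 1 := by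
  unfold nuTwo
  have : Unique {x : ZMod 1 // x ^ 2 + 1 = 0} :=
    ⟨⟨⟨0, Subsingleton.elim _ _⟩⟩, fun a => Subtype.ext (Subsingleton.elim _ _)⟩
  exact Nat.card_unique

theorem nuThree_one : nuThree 1 = 1 := by
  unfold nuThree
  have : Unique {x : ZMod 1 // x ^ 2 + x + 1 = 0} :=
    ⟨⟨⟨0, Subsingleton.elim _ _⟩⟩, fun a => Subtype.ext (Subsingleton.elim _ _)⟩
  exact Nat.card_unique

theorem genusFormula_one : genusFormula 1 = 0 := by
  unfold genusFormula
  rw [dedekindPsi_one, nuTwo_one, nuThree_one, cuspCount_one]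
  norm_num

/-- `X₀(1)` has genus `0` -/
theorem genusRR_FN_one : genusRR Kbar (FN 1) = 0 := by
  have h := Fermat.Agent.GL.Genus.genusRR_FN 1
  rw [genusFormula_one] at h
  exact_mod_cast h

/-- **the special fibre of `X₀(p)` has components of genus `0`**: the residue function field of the
Gauss valuation at level `1 * p` has genus `0`. -/
theorem genusRR_FresBar_one_mul (p : ℕ) [Fact p.Prime] [NeZero p] (A : ValuationSubring Kbar)
    (h : ExactDvd p (1 * p)) (hA : A.LiesOverPrime p) (hp2 : p ≠ 2) (hp3 : p ≠ 3) :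
    genusRR (ResidueField A) (FresBar (1 * p) A) = 0 := by
  have hp1 : ¬ p ∣ 1 := fun hd => (Fact.out : p.Prime).one_lt.ne' (Nat.dvd_one.1 hd)
  rw [Fermat.Agent.GL.Genus.genusRR_FresBar_mul_eq 1 p A h hp1 hA (fun h2 => absurd h2 hp2)
    (fun h3 => absurd h3 hp3)]
  exact genusRR_FN_one



open AlgebraicCurve ModularCurve IsLocalRing
open Fermat.Agent.RRh45 Fermat.Agent.RR Fermat.Agent.S24 Fermat.Agent.GJ.J1.InstGen
open Fermat.Agent.GJ.J1 Fermat.Agent.GJ.J1.Val Fermat.Agent.GK.AL Fermat.Agent.GK.CuspSep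
open Fermat.Agent.GS.Nodal.Inst Fermat.Agent.GK.SS Fermat.Agent.GJ.KumGroup

/-- `ℚ̄`. -/
local notation "Qb" => AlgebraicClosure ℚ

/-! ### reduction data: units and constant reductions -/

section RedGlue

variable {K F k Ft : Type*} [Field K] [Field F] [Algebra K F] [Field k] [Field Ft] [Algebra k Ft]

/-- an element of `Rw` with nonzero reduction is a unit of `Rw`. -/
theorem inv_mem_of_red_ne_zero (R : RedData K F k Ft) {x : F} (hx : x ∈ R.Rw)
    (h : R.red ⟨x, hx⟩ ≠ 0) : x⁻¹ ∈ R.Rw := by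
  have h1 : (⟨x, hx⟩ : R.Rw) ∉ IsLocalRing.maximalIdeal R.Rw := fun hm =>
    h ((R.red_eq_zero_iff _).2 hm)
  have h2 : IsUnit (⟨x, hx⟩ : R.Rw) := IsLocalRing.notMem_maximalIdeal.1 h1
  obtain ⟨y, hy⟩ := h2.exists_right_inv
  have h3 : x * (y : F) = 1 := congrArg Subtype.val hy
  have h4 : x⁻¹ = (y : F) := inv_eq_of_mul_eq_one_right h3
  rw [h4]
  exact y.2

theorem red_inv (R : RedData K F k Ft) {x : F} (hx0 : x ≠ 0) (hx : x ∈ R.Rw) (hxi : x⁻¹ ∈ R.Rw) :
    R.red ⟨x⁻¹, hxi⟩ = (R.red ⟨x, hx⟩)⁻¹ := by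
  have h1 : R.red ⟨x, hx⟩ * R.red ⟨x⁻¹, hxi⟩ = 1 := by
    rw [← map_mul]
    have e : (⟨x, hx⟩ * ⟨x⁻¹, hxi⟩ : R.Rw) = 1 := Subtype.ext (mul_inv_cancel₀ hx0)
    rw [e, map_one]
  exact eq_inv_of_mul_eq_one_right h1

/-- the reduction of `y ^ c / x ^ m`. -/
theorem red_pow_mul_inv_pow (R : RedData K F k Ft) {y x : F} (hx0 : x ≠ 0) (hy : y ∈ R.Rw)
    (hx : x ∈ R.Rw) (hxi : x⁻¹ ∈ R.Rw) (c m : ℕ) :
    ∃ hg : y ^ c * (x ^ m)⁻¹ ∈ R.Rw,
      R.red ⟨y ^ c * (x ^ m)⁻¹, hg⟩ = R.red ⟨y, hy⟩ ^ c * (R.red ⟨x, hx⟩ ^ m)⁻¹ := by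
  have e : y ^ c * (x ^ m)⁻¹ = y ^ c * x⁻¹ ^ m := by rw [inv_pow]
  have hg : y ^ c * (x ^ m)⁻¹ ∈ R.Rw := by
    rw [e]
    exact mul_mem (pow_mem hy c) (pow_mem hxi m)
  refine ⟨hg, ?_⟩
  have e2 : (⟨y ^ c * (x ^ m)⁻¹, hg⟩ : R.Rw) = ⟨y, hy⟩ ^ c * ⟨x⁻¹, hxi⟩ ^ m := Subtype.ext e
  rw [e2, map_mul, map_pow, map_pow, red_inv R hx0 hx hxi, inv_pow]

end RedGlue

section CstGlue

variable {N : ℕ} {A : ValuationSubring Qb} {Ft : Type*} [Field Ft] [Algebra (ResidueField A) Ft]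

/-- a `W`-integral function whose reduction is a NONZERO CONSTANT is a unit with constant reduction
in the sense of `GalVal` (converse of `GalVal.red_eq_cstRed`). -/
theorem isCstUnit_of_red_eq (V : GalVal N A) (R : RedData Qb (FK N) (ResidueField A) Ft)
    (hW : R.Rw = V.W)
    (hconst : ∀ (a : Qb) (ha : a ∈ A) (h : algebraMap Qb (FK N) a ∈ R.Rw),
      R.red ⟨algebraMap Qb (FK N) a, h⟩ = algebraMap (ResidueField A) Ft (residue A ⟨a, ha⟩))
    {y : FK N} (hy : y ∈ R.Rw) {a : ResidueField A} (ha : a ≠ 0)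
    (hred : R.red ⟨y, hy⟩ = algebraMap (ResidueField A) Ft a) : V.IsCstUnit y := by
  obtain ⟨b, hb⟩ := IsLocalRing.residue_surjective a
  have hbu : IsUnit b := by
    rw [← IsLocalRing.notMem_maximalIdeal, ← IsLocalRing.residue_eq_zero_iff, hb]
    exact ha
  have hb1 : A.valuation (b : Qb) = 1 := (A.valuation_eq_one_iff b).1 hbu
  have hbW : algebraMap Qb (FK N) (b : Qb) ∈ R.Rw := by
    rw [hW]
    exact (V.mem_const _).2 b.2
  refine ⟨(b : Qb), hb1, ?_⟩
  have hsub : y - algebraMap Qb (FK N) (b : Qb) ∈ R.Rw := sub_mem hy hbW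
  have h0 : R.red ⟨y - algebraMap Qb (FK N) (b : Qb), hsub⟩ = 0 := by
    have e : (⟨y - algebraMap Qb (FK N) (b : Qb), hsub⟩ : R.Rw) =
        ⟨y, hy⟩ - ⟨algebraMap Qb (FK N) (b : Qb), hbW⟩ := rfl
    rw [e, map_sub, hred, hconst (b : Qb) b.2 hbW, Subtype.coe_eta, hb, sub_self]
  have h1 := (R.red_eq_zero_iff _).1 h0
  have h2 := (R.Rw.valuation_lt_one_iff _).1 h1
  rw [← hW]
  exact h2

end CstGlue


open Fermat.Agent.GJ.KumGroup Fermat.Agent.GH.KummerPic

section KumGen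

variable {K F : Type*} [Field K] [Field F] [Algebra K F] [HasPrincipalDivisors K F]

/-- the class of `u ^ c / x ^ m` is `c • [u]`. -/
theorem kum0_pow_mul_inv_pow (m : ℕ) [NeZero m] (u : pDivUnits K F m) (c : ℕ) (x : Fˣ) :
    kum0 (K := K) (F := F) m
        (Additive.ofMul (u ^ c * (⟨x ^ m, pow_mem_pDivUnits K F m x⟩ : pDivUnits K F m)⁻¹)) =
      c • kum0 (K := K) (F := F) m (Additive.ofMul u) := by
  have e : Additive.ofMul (u ^ c * (⟨x ^ m, pow_mem_pDivUnits K F m x⟩ : pDivUnits K F m)⁻¹) =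
      c • Additive.ofMul u +
        -(Additive.ofMul (⟨x ^ m, pow_mem_pDivUnits K F m x⟩ : pDivUnits K F m)) := rfl
  rw [e, map_add, map_neg, map_nsmul,
    kum0_eq_zero_of_pow m (⟨x ^ m, pow_mem_pDivUnits K F m x⟩ : pDivUnits K F m) x rfl,
    neg_zero, add_zero]

omit [HasPrincipalDivisors K F] in
/-- the underlying function of `u ^ c / x ^ m`. -/
theorem coe_pow_mul_inv_pow (m : ℕ) (u : pDivUnits K F m) (c : ℕ) {x : F} (hx0 : x ≠ 0) :
    (((u ^ c * (⟨Units.mk0 x hx0 ^ m, pow_mem_pDivUnits K F m _⟩ : pDivUnits K F m)⁻¹ :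
      pDivUnits K F m) : Fˣ) : F) = ((u : Fˣ) : F) ^ c * (x ^ m)⁻¹ := by
  simp

end KumGen



open Fermat.Agent.GB.A.FP Fermat.Agent.GS.F Fermat.Agent.GH.TorsionCount
open Fermat.Agent.GJ.Kum.KumType

/-! ### the core: genus-zero components -/

section Core

variable {N q : ℕ} [NeZero N] [NeZero q] (h : ExactDvd q N) (A : ValuationSubring Qb)

/-- **(A5) with trivial abelian part, `c`-form**: if the components of the special fibre have genus
`0`, an `m`-divisible unit `u`, unit for both Gauss valuations, with `m ∣ c · div (red_i u)`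
(`i = 1, 2`) has `c • [u] ∈ M⁰_m`. -/
theorem nsmul_kum0_mem_M0mod_of_genus_zero (hA : A.LiesOverPrime q)
    (hgen : genusRR (ResidueField A) (FresBar N A) = 0) {m : ℕ} [NeZero m] (c : ℕ)
    (u : pDivUnits Qb (FK N) m) (hu : BothUnit h A (u : (FK N)ˣ))
    (h1 : ∀ Q : Place (ResidueField A) (FresBar N A),
      (m : ℤ) ∣ (c : ℤ) * Q.ord ((redUnit₁ hu : (FresBar N A)ˣ) : FresBar N A))
    (h2 : ∀ Q : Place (ResidueField A) (FresBar N A),
      (m : ℤ) ∣ (c : ℤ) * Q.ord ((redUnit₂ hu : (FresBar N A)ˣ) : FresBar N A)) :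
    haveI := hasPrincipalDivisors_FK N
    c • (kum0 (K := Qb) (F := FK N) m (Additive.ofMul u) : JZero N) ∈ M0mod N A h m := by
  have := hasPrincipalDivisors_FK N
  haveI : IsGen (ResidueField A) (tauF N A) := Fermat.Agent.GK.SymDegree.isGen_tauF N A
  have hm : m ≠ 0 := NeZero.ne m
  -- the two reductions are constants times `m`-th powers
  obtain ⟨a₁, w₁, ha₁, hw₁, e₁⟩ := exists_const_mul_pow (tauF N A) hgen
    (redUnit₁ hu).ne_zero hm c h1
  obtain ⟨a₂, w₂, ha₂, hw₂, e₂⟩ := exists_const_mul_pow (tauF N A) hgen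
    (redUnit₂ hu).ne_zero hm c h2
  -- simultaneous lift of the two roots
  obtain ⟨x, hx1, hx2, ex1, ex2⟩ := pairSurj_FN N A h hA (w₁, w₂)
  have ex1 : (redDataBar N A).red ⟨x, hx1⟩ = w₁ := ex1
  have ex2 : (redData2 N A h).red ⟨x, hx2⟩ = w₂ := ex2
  have hr1 : (redDataBar N A).red ⟨x, hx1⟩ ≠ 0 := by rw [ex1]; exact hw₁
  have hr2 : (redData2 N A h).red ⟨x, hx2⟩ ≠ 0 := by rw [ex2]; exact hw₂
  have hx0 : x ≠ 0 := by
    rintro rfl
    exact hr1 (map_zero _)
  have hxi1 := inv_mem_of_red_ne_zero (redDataBar N A) hx1 hr1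
  have hxi2 := inv_mem_of_red_ne_zero (redData2 N A h) hx2 hr2
  obtain ⟨hg1, eg1⟩ := red_pow_mul_inv_pow (redDataBar N A) (y := ((u : (FK N)ˣ) : FK N))
    hx0 hu.1.1 hx1 hxi1 c m
  obtain ⟨hg2, eg2⟩ := red_pow_mul_inv_pow (redData2 N A h) (y := ((u : (FK N)ˣ) : FK N))
    hx0 hu.2.1 hx2 hxi2 c m
  have hw₁m : w₁ ^ m ≠ 0 := pow_ne_zero m hw₁
  have hw₂m : w₂ ^ m ≠ 0 := pow_ne_zero m hw₂
  have er1 : (redDataBar N A).red ⟨((u : (FK N)ˣ) : FK N), hu.1.1⟩ ^ c =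
      algebraMap (ResidueField A) (FresBar N A) a₁ * w₁ ^ m := e₁
  have er2 : (redData2 N A h).red ⟨((u : (FK N)ˣ) : FK N), hu.2.1⟩ ^ c =
      algebraMap (ResidueField A) (FresBar N A) a₂ * w₂ ^ m := e₂
  rw [er1, ex1, mul_assoc, mul_inv_cancel₀ hw₁m, mul_one] at eg1
  rw [er2, ex2, mul_assoc, mul_inv_cancel₀ hw₂m, mul_one] at eg2
  -- the new generator
  have hc1 : (galVal1 N A).IsCstUnit (((u : (FK N)ˣ) : FK N) ^ c * (x ^ m)⁻¹) :=
    isCstUnit_of_red_eq (galVal1 N A) (redDataBar N A) rfl (red1_const N A) hg1 ha₁ eg1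
  have hc2 : (galVal2 N A h).IsCstUnit (((u : (FK N)ˣ) : FK N) ^ c * (x ^ m)⁻¹) :=
    isCstUnit_of_red_eq (galVal2 N A h) (redData2 N A h) rfl (red2_const N A h) hg2 ha₂ eg2
  have hclass := kum0_pow_mul_inv_pow (K := Qb) (F := FK N) m u c (Units.mk0 x hx0)
  refine mem_M0.2 ⟨_, ⟨SetLike.coe_mem _, ?_, ?_⟩, hclass⟩
  · rw [coe_pow_mul_inv_pow]
    exact hc1
  · rw [coe_pow_mul_inv_pow]
    exact hc2

end Core


/-! ### integer multiples -/

section CoreInt

variable {N q : ℕ} [NeZero N] [NeZero q] (h : ExactDvd q N) (A : ValuationSubring Qb)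

/-- the core for `c : ℤ` (the shape of `NodeHypC h A m c`). -/
theorem zsmul_kum0_mem_M0mod_of_genus_zero (hA : A.LiesOverPrime q)
    (hgen : genusRR (ResidueField A) (FresBar N A) = 0) {m : ℕ} [NeZero m] (c : ℤ)
    (u : pDivUnits Qb (FK N) m) (hu : BothUnit h A (u : (FK N)ˣ))
    (h1 : ∀ Q : Place (ResidueField A) (FresBar N A),
      (m : ℤ) ∣ c * Q.ord ((redUnit₁ hu : (FresBar N A)ˣ) : FresBar N A))
    (h2 : ∀ Q : Place (ResidueField A) (FresBar N A),
      (m : ℤ) ∣ c * Q.ord ((redUnit₂ hu : (FresBar N A)ˣ) : FresBar N A)) :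
    haveI := hasPrincipalDivisors_FK N
    c • (kum0 (K := Qb) (F := FK N) m (Additive.ofMul u) : JZero N) ∈ M0mod N A h m := by
  have := hasPrincipalDivisors_FK N
  obtain ⟨n, rfl | rfl⟩ := Int.eq_nat_or_neg c
  · rw [natCast_zsmul]
    exact nsmul_kum0_mem_M0mod_of_genus_zero h A hA hgen n u hu h1 h2
  · rw [neg_smul, natCast_zsmul]
    refine neg_mem (nsmul_kum0_mem_M0mod_of_genus_zero h A hA hgen n u hu (fun Q => ?_)
      (fun Q => ?_))
    · have := h1 Q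
      rwa [neg_mul, dvd_neg] at this
    · have := h2 Q
      rwa [neg_mul, dvd_neg] at this

end CoreInt

/-! ### level `1 * q` and level `p` -/

section LevelP

/-- level `N = 1 * q` (`q ≠ 2, 3`): the components of the special fibre are `j`-lines. -/
theorem zsmul_kum0_mem_M0mod_of_eq {N q : ℕ} [NeZero N] [NeZero q] (h : ExactDvd q N)
    (hN : N = 1 * q) (A : ValuationSubring Qb) (hA : A.LiesOverPrime q) (hq2 : q ≠ 2) (hq3 : q ≠ 3)
    {m : ℕ} [NeZero m] (c : ℤ) (u : pDivUnits Qb (FK N) m) (hu : BothUnit h A (u : (FK N)ˣ))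
    (h1 : ∀ Q : Place (ResidueField A) (FresBar N A),
      (m : ℤ) ∣ c * Q.ord ((redUnit₁ hu : (FresBar N A)ˣ) : FresBar N A))
    (h2 : ∀ Q : Place (ResidueField A) (FresBar N A),
      (m : ℤ) ∣ c * Q.ord ((redUnit₂ hu : (FresBar N A)ˣ) : FresBar N A)) :
    haveI := hasPrincipalDivisors_FK N
    c • (kum0 (K := Qb) (F := FK N) m (Additive.ofMul u) : JZero N) ∈ M0mod N A h m := by
  subst hN
  haveI : Fact q.Prime := ⟨h.prime⟩
  exact zsmul_kum0_mem_M0mod_of_genus_zero h A hA (genusRR_FresBar_one_mul q A h hA hq2 hq3) c u hu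
    h1 h2

/-- the same for `c : ℕ`. -/
theorem nsmul_kum0_mem_M0mod_of_eq {N q : ℕ} [NeZero N] [NeZero q] (h : ExactDvd q N)
    (hN : N = 1 * q) (A : ValuationSubring Qb) (hA : A.LiesOverPrime q) (hq2 : q ≠ 2) (hq3 : q ≠ 3)
    {m : ℕ} [NeZero m] (c : ℕ) (u : pDivUnits Qb (FK N) m) (hu : BothUnit h A (u : (FK N)ˣ))
    (h1 : ∀ Q : Place (ResidueField A) (FresBar N A),
      (m : ℤ) ∣ (c : ℤ) * Q.ord ((redUnit₁ hu : (FresBar N A)ˣ) : FresBar N A))
    (h2 : ∀ Q : Place (ResidueField A) (FresBar N A),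
      (m : ℤ) ∣ (c : ℤ) * Q.ord ((redUnit₂ hu : (FresBar N A)ˣ) : FresBar N A)) :
    haveI := hasPrincipalDivisors_FK N
    c • (kum0 (K := Qb) (F := FK N) m (Additive.ofMul u) : JZero N) ∈ M0mod N A h m := by
  have := hasPrincipalDivisors_FK N
  have h0 := zsmul_kum0_mem_M0mod_of_eq h hN A hA hq2 hq3 (c : ℤ) u hu h1 h2
  rwa [natCast_zsmul] at h0

variable {p : ℕ} [NeZero p] (A : ValuationSubring Qb) (h : ExactDvd p p)

/-- **(A5P)** of helper12's RULING-3 (board 6038), `c : ℕ`: at the prime level `p ≠ 2, 3`, `A ∣ p`,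
an `m`-divisible unit `u` of `F_p`, unit for both Gauss valuations, with
`m ∣ c · ord_Q (red_i u)` for every place `Q` of the residue function field (`i = 1, 2`) has
`c • [u] ∈ M0mod p A h m`. -/
theorem a5p (hA : A.LiesOverPrime p) (hp2 : p ≠ 2) (hp3 : p ≠ 3) (m : ℕ) [NeZero m] (c : ℕ)
    (u : pDivUnits Qb (FK p) m) (hu : BothUnit h A (u : (FK p)ˣ))
    (h1 : ∀ Q : Place (ResidueField A) (FresBar p A),
      (m : ℤ) ∣ (c : ℤ) * Q.ord ((redUnit₁ hu : (FresBar p A)ˣ) : FresBar p A))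
    (h2 : ∀ Q : Place (ResidueField A) (FresBar p A),
      (m : ℤ) ∣ (c : ℤ) * Q.ord ((redUnit₂ hu : (FresBar p A)ˣ) : FresBar p A)) :
    haveI := hasPrincipalDivisors_FK p
    c • (kum0 (K := Qb) (F := FK p) m (Additive.ofMul u) : JZero p) ∈ M0mod p A h m :=
  nsmul_kum0_mem_M0mod_of_eq h (one_mul p).symm A hA hp2 hp3 c u hu h1 h2

/-- **(A5P)**, `c : ℤ` (the spelling of `NodeHypC h A m c`, helper26 6026). -/
theorem a5p_zsmul (hA : A.LiesOverPrime p) (hp2 : p ≠ 2) (hp3 : p ≠ 3) (m : ℕ) [NeZero m] (c : ℤ)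
    (u : pDivUnits Qb (FK p) m) (hu : BothUnit h A (u : (FK p)ˣ))
    (h1 : ∀ Q : Place (ResidueField A) (FresBar p A),
      (m : ℤ) ∣ c * Q.ord ((redUnit₁ hu : (FresBar p A)ˣ) : FresBar p A))
    (h2 : ∀ Q : Place (ResidueField A) (FresBar p A),
      (m : ℤ) ∣ c * Q.ord ((redUnit₂ hu : (FresBar p A)ˣ) : FresBar p A)) :
    haveI := hasPrincipalDivisors_FK p
    c • (kum0 (K := Qb) (F := FK p) m (Additive.ofMul u) : JZero p) ∈ M0mod p A h m :=
  zsmul_kum0_mem_M0mod_of_eq h (one_mul p).symm A hA hp2 hp3 c u hu h1 h2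

/-- **NODE ∘ A5P**: from the (unfolded) `NodeHypC h A m c` of helper26 (board 6026): every
`I_A`-fixed `m`-divisible unit `u` of `F_p` which is a unit for both Gauss valuations has
`c • [u] ∈ M0mod p A h m`. -/
theorem a5p_of_node (hA : A.LiesOverPrime p) (hp2 : p ≠ 2) (hp3 : p ≠ 3) (m : ℕ) [NeZero m] (c : ℤ)
    (hnode : ∀ u : pDivUnits Qb (FK p) m,
      (∀ σ ∈ A.inertiaSubgroupIn ℚ, galUnits p σ (u : (FK p)ˣ) = (u : (FK p)ˣ)) →
      ∀ hu : BothUnit h A (u : (FK p)ˣ),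
        (∀ Q : Place (ResidueField A) (FresBar p A),
          (m : ℤ) ∣ c * Q.ord ((redUnit₁ hu : (FresBar p A)ˣ) : FresBar p A)) ∧
        (∀ Q : Place (ResidueField A) (FresBar p A),
          (m : ℤ) ∣ c * Q.ord ((redUnit₂ hu : (FresBar p A)ˣ) : FresBar p A)))
    (u : pDivUnits Qb (FK p) m)
    (hfix : ∀ σ ∈ A.inertiaSubgroupIn ℚ, galUnits p σ (u : (FK p)ˣ) = (u : (FK p)ˣ))
    (hu : BothUnit h A (u : (FK p)ˣ)) :
    haveI := hasPrincipalDivisors_FK p
    c • (kum0 (K := Qb) (F := FK p) m (Additive.ofMul u) : JZero p) ∈ M0mod p A h m :=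
  a5p_zsmul A h hA hp2 hp3 m c u hu (hnode u hfix hu).1 (hnode u hfix hu).2

end LevelP

end Fermat.Agent.GZ.LocP.A5P
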