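/-
GATE-Z / LOC-p, leaf (E2) of helper12's RULING (board 5926) (helper30):
**inertia at `A ∣ q ∥ N` acts trivially on the toric part `M⁰_m ⊆ J₀(N)[m]`, `q ∤ m`.**

`M⁰_m = GS.F.M0mod N A h m` = classes of the admissible Kummer generators (both Gauss valuations
`0`, both reductions constant) `= ker r₁ ⊓ ker r₂` in `Kum_m(F_N)`.  On `ker r₁ ⊓ ker r₂` EVERY
Frobenius lift `φ` at `A` satisfies `φ = -q ∘ W_q` (`GB/A1/FrobWAll.frobW_all'`, helper25, `q ∤ m`);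
with `φ`, also `φ σ` is a Frobenius lift for `σ ∈ I_A`; hence `φ (σ y) = φ y`, i.e. `σ y = y`.

* `isFrobeniusAt_mul_of_mem_inertia` : `φ` Frobenius at `A`, `σ ∈ I_A ⟹ φ * σ` Frobenius at `A`;
* `mem_kerRed_inf_of_mem_goodUnitsMod` : the class of an admissible unit lies in `ker r₁ ⊓ ker r₂`
  (converse of `GB/B10/Phi2/Merge.kummerEquivFK_mem_M0mod`);
* `exists_kum_of_mem_M0mod` : `x ∈ M⁰_m ⟹ x = kummerEquivFK y`, `y ∈ ker r₁ ⊓ ker r₂`;
* `gal_eq_self_of_mem_kerRed_inf` : `σ ∈ I_A` fixes `ker r₁ ⊓ ker r₂` pointwise (`q ∤ m`);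
* **`smul_eq_of_mem_M0mod`** : (E2) at every level `q ∥ N`;
* `e2` : (E2) in the spelling of the ruling (level `p`, `h : ExactDvd p p`).
-/
import Fermat.Agent.GB.A1.FrobWAll
import Fermat.Agent.GB.B10.Phi2.Merge
import Fermat.Agent.Common_helper32.FrobeniusExists

set_option autoImplicit false
set_option linter.unusedSectionVars false

noncomputable section

namespace Fermat.Agent.GZ.LocP.E2

open AlgebraicCurve ModularCurve
open Fermat.Agent.GJ.KumGroup Fermat.Agent.GJ.Kum.KumType Fermat.Agent.GK.AL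
open Fermat.Agent.GK.UqKronecker Fermat.Agent.GK.SS
open Fermat.Agent.GS.F Fermat.Agent.GH.KummerEquivariant Fermat.Agent.GH.TorsionCount
open Fermat.Agent.GB.B10.Phi2.Approx2 Fermat.Agent.GB.B10.Phi2.Merge

/-- `ℚ̄`. -/
local notation "Qb" => AlgebraicClosure ℚ
local notation "GQ" => (AlgebraicClosure ℚ ≃ₐ[ℚ] AlgebraicClosure ℚ)

/-! ### Frobenius lifts are a coset of inertia -/

/-- `φ` a Frobenius element at `A`, `σ ∈ I_A` ⟹ `φ * σ` is a Frobenius element at `A`. -/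
theorem isFrobeniusAt_mul_of_mem_inertia {A : ValuationSubring Qb} {q : ℕ} {φ σ : GQ}
    (hφ : A.IsFrobeniusAt φ q) (hσ : σ ∈ A.inertiaSubgroupIn ℚ) : A.IsFrobeniusAt (φ * σ) q := by
  obtain ⟨hφD, hφ'⟩ := hφ
  obtain ⟨hσD, hσI⟩ := (Fermat.Agent.S05.mem_inertiaSubgroupIn_iff A σ).1 hσ
  refine ⟨mul_mem hφD hσD, fun x => ?_⟩
  have e : (⟨φ * σ, mul_mem hφD hσD⟩ : A.decompositionSubgroup ℚ) =
      (⟨φ, hφD⟩ : A.decompositionSubgroup ℚ) * ⟨σ, hσD⟩ := rfl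
  have hσx : (⟨σ, hσD⟩ : A.decompositionSubgroup ℚ) • x = x := by
    have h1 : (⟨σ, hσD⟩ : A.decompositionSubgroup ℚ) ∈ A.inertiaSubgroup ℚ := hσI
    rw [ValuationSubring.inertiaSubgroup, MonoidHom.mem_ker] at h1
    have h2 := congrArg (fun f => f x) h1
    exact h2
  rw [e, mul_smul, hσx, hφ']

/-! ### the dictionary `M⁰_m ↔ ker r₁ ⊓ ker r₂` -/

section Dict

variable {N : ℕ} [NeZero N] {A : ValuationSubring Qb} {q : ℕ} (h : ExactDvd q N)

omit [NeZero N] in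
/-- a unit with constant reduction is a constant times a principal unit. -/
theorem exists_isP_of_isCstUnit {V : GalVal N A} {y : FK N} (hy : V.IsCstUnit y) :
    ∃ c : Qb, c ≠ 0 ∧ IsP V.W (y / algebraMap Qb (FK N) c) := by
  obtain ⟨a, ha, hlt⟩ := hy
  have ha0 : a ≠ 0 := by
    intro h0
    rw [h0, map_zero] at ha
    exact zero_ne_one ha
  have hca : algebraMap Qb (FK N) a ≠ 0 :=
    (map_ne_zero_iff _ (algebraMap Qb (FK N)).injective).2 ha0
  refine ⟨a, ha0, ?_⟩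
  show V.W.valuation (y / algebraMap Qb (FK N) a - 1) < 1
  have e : y / algebraMap Qb (FK N) a - 1 =
      (y - algebraMap Qb (FK N) a) / algebraMap Qb (FK N) a := by
    field_simp
  rw [e, map_div₀, V.val_const_eq_one ha, div_one]
  exact hlt

/-- **the class of an admissible unit lies in `ker r₁ ⊓ ker r₂`.** -/
theorem mem_kerRed_inf_of_mem_goodUnitsMod {m : ℕ} (u : pDivUnits Qb (FK N) m)
    (hu : (u : (FK N)ˣ) ∈ goodUnitsMod N A h m) :
    Additive.ofMul (Kum.mk u) ∈ kerRed N A m ∧ Additive.ofMul (Kum.mk u) ∈ kerRed₂ h A m := by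
  obtain ⟨-, h1, h2⟩ := mem_goodUnits.1 hu
  refine ⟨mem_kerRed.mpr ⟨u, ?_, rfl⟩, mem_kerRedW.mpr ⟨u, ?_, rfl⟩⟩
  · exact (isCPrin_iff _).2 (exists_isP_of_isCstUnit h1)
  · exact (isCPrin_wAut_iff h _).2 (exists_isP_of_isCstUnit h2)

/-- every element of `M⁰_m` is the image of a class in `ker r₁ ⊓ ker r₂`. -/
theorem exists_kum_of_mem_M0mod {m : ℕ} [NeZero m] {x : JZero N} (hx : x ∈ M0mod N A h m) :
    ∃ y : Additive (Kum Qb (FK N) m), y ∈ kerRed N A m ∧ y ∈ kerRed₂ h A m ∧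
      ((kummerEquivFK N m y : Pic0.torsion Qb (FK N) m) : JZero N) = x := by
  have := hasPrincipalDivisors_FK N
  obtain ⟨u, hu, hux⟩ := mem_M0.1 hx
  obtain ⟨h1, h2⟩ := mem_kerRed_inf_of_mem_goodUnitsMod h u hu
  refine ⟨Additive.ofMul (Kum.mk u), h1, h2, ?_⟩
  rw [coe_kummerEquivFK_mk, ← hux]
  exact (Fermat.Agent.GH.KummerPic.kum0_apply m u).symm

end Dict

/-! ### (E2) -/

section Main

variable {N : ℕ} [NeZero N] {A : ValuationSubring Qb} {q : ℕ} (h : ExactDvd q N)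

/-- **inertia fixes `ker r₁ ⊓ ker r₂` pointwise** (`q ∤ m`). -/
theorem gal_eq_self_of_mem_kerRed_inf (hA : A.LiesOverPrime q) {m : ℕ} (hqm : ¬ q ∣ m) {σ : GQ}
    (hσ : σ ∈ A.inertiaSubgroupIn ℚ) {y : Additive (Kum Qb (FK N) m)} (h1 : y ∈ kerRed N A m)
    (h2 : y ∈ kerRed₂ h A m) : gal N m σ y = y := by
  have hAq : ((q : ℕ) : Qb) ∈ A.nonunits := hA
  obtain ⟨φ, hφ⟩ := Fermat.Agent.Common_helper32.exists_isFrobeniusAt_of_liesOver A q h.prime hAq
  have hφσ := isFrobeniusAt_mul_of_mem_inertia hφ hσ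
  have e1 := Fermat.Agent.GB.A1.frobW_all' N q h m hqm A hA φ hφ y h1 h2
  have e2 := Fermat.Agent.GB.A1.frobW_all' N q h m hqm A hA (φ * σ) hφσ y h1 h2
  have e3 : gal N m (φ * σ) y = gal N m φ (gal N m σ y) := by
    rw [map_mul]
    rfl
  rw [e3, ← e1] at e2
  have hinj : Function.Injective (gal N m φ) := by
    intro a b hab
    have h3 := congrArg (gal N m φ⁻¹) hab
    have e4 : ∀ c, gal N m φ⁻¹ (gal N m φ c) = c := fun c => by
      have : gal N m φ⁻¹ (gal N m φ c) = gal N m (φ⁻¹ * φ) c := by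
        rw [map_mul]
        rfl
      rw [this, inv_mul_cancel, map_one]
      rfl
    rwa [e4, e4] at h3
  exact hinj e2

/-- **(E2)**: inertia at `A ∣ q ∥ N` acts trivially on the toric part `M⁰_m`, `q ∤ m`. -/
theorem smul_eq_of_mem_M0mod (hA : A.LiesOverPrime q) {m : ℕ} [NeZero m] (hqm : ¬ q ∣ m) {σ : GQ}
    (hσ : σ ∈ A.inertiaSubgroupIn ℚ) {x : JZero N} (hx : x ∈ M0mod N A h m) : σ • x = x := by
  obtain ⟨y, h1, h2, rfl⟩ := exists_kum_of_mem_M0mod h hx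
  rw [← coe_kummerEquivFK_gal, gal_eq_self_of_mem_kerRed_inf h hA hqm hσ h1 h2]

end Main

/-- **(E2)** in the spelling of helper12's ruling (board 5926): level `p`, `h : ExactDvd p p`. -/
theorem e2 {p : ℕ} [NeZero p] (A : ValuationSubring Qb) (hA : A.LiesOverPrime p)
    (h : ExactDvd p p) (m : ℕ) [NeZero m] :
    ¬ p ∣ m → ∀ σ ∈ A.inertiaSubgroupIn ℚ, ∀ x ∈ M0mod p A h m, σ • x = x :=
  fun hpm _ hσ _ hx => smul_eq_of_mem_M0mod h hA hpm hσ hx

end Fermat.Agent.GZ.LocP.E2
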