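/-
GATE-Z (S15, Mazur block) / (LOC-p) leaf (DIV), abstract half (helper87): **divisibility of the
rational points of a "Jacobian" from four inputs**, Mathlib only.

`J` an abelian group, `red : J →+ J'` ("reduction at a good auxiliary prime `ℓ`"), `MW ≤ J`
("rational points").  Inputs:

* (FIN) `red '' MW` is finite (`GR/W/RedFin`);
* (K2)  `ker red ⊆ M • J` for every `M ≥ 1` prime to `ℓ` (`GR/W/K2`, UPFV pair theorem);
* (CNT) `#J[M] = M ^ d` for every `M ≠ 0` (`GH/TorsionCount`).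

Then every `z ∈ MW` is `m`-divisible in `J`, for every `m ≠ 0` prime to `ℓ`.

* `tors J M`, `mem_tors` : the `M`-torsion subgroup (kernel of `M • ·`);
* `exists_nsmul_eq_of_card` : (CNT) ⟹ `J[n] ⊆ m • J` (indeed `m • J[n m] = J[n]`, by counting);
* `exists_nsmul_eq_of_red` : the statement above.
-/
import Mathlib

set_option autoImplicit false

namespace Fermat.Agent.GZ.LocP.DivAbs

section Tors

variable (J : Type*) [AddCommGroup J]

/-- the `M`-torsion subgroup of `J`. -/
def tors (M : ℕ) : AddSubgroup J := (nsmulAddMonoidHom (α := J) M).ker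

variable {J}

theorem mem_tors {M : ℕ} {x : J} : x ∈ tors J M ↔ M • x = 0 := by
  unfold tors
  rw [AddMonoidHom.mem_ker, nsmulAddMonoidHom_apply]

/-- **torsion is divisible, by counting**: if `#J[M] = M ^ d` for every `M ≠ 0`, then every
`n`-torsion element is `m`-divisible (`m • J[n m] = J[n]`). -/
theorem exists_nsmul_eq_of_card {d : ℕ}
    (hcard : ∀ M : ℕ, M ≠ 0 → Nat.card (tors J M) = M ^ d)
    {n m : ℕ} (hn : n ≠ 0) (hm : m ≠ 0) {t : J} (ht : n • t = 0) : ∃ t' : J, m • t' = t := by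
  classical
  have hnm : n * m ≠ 0 := mul_ne_zero hn hm
  -- finiteness
  have hfinG : Finite (tors J (n * m)) :=
    Nat.finite_of_card_ne_zero (by rw [hcard _ hnm]; exact pow_ne_zero _ hnm)
  have hfinN : Finite (tors J n) :=
    Nat.finite_of_card_ne_zero (by rw [hcard _ hn]; exact pow_ne_zero _ hn)
  -- the map `x ↦ m • x : J[n m] → J[n]`
  let φ : tors J (n * m) →+ tors J n :=
    { toFun := fun x => ⟨m • (x : J), mem_tors.2 (by
        have := mem_tors.1 x.2
        rw [← mul_smul]; exact this)⟩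
      map_zero' := Subtype.ext (by show m • ((0 : tors J (n * m)) : J) = 0; simp)
      map_add' := fun x y => Subtype.ext (by
        show m • ((x + y : tors J (n * m)) : J) = m • (x : J) + m • (y : J)
        rw [AddSubgroup.coe_add, smul_add]) }
  have hφ : ∀ x : tors J (n * m), ((φ x : tors J n) : J) = m • (x : J) := fun _ => rfl
  -- the kernel is `J[m]`
  have hker : Nat.card φ.ker = m ^ d := by
    rw [← hcard m hm]
    refine Nat.card_congr
      { toFun := fun x => ⟨((x : tors J (n * m)) : J), mem_tors.2 (by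
          have h1 : φ (x : tors J (n * m)) = 0 := x.2
          have h2 := congrArg (fun y : tors J n => (y : J)) h1
          simpa [hφ] using h2)⟩
        invFun := fun y => ⟨⟨(y : J), mem_tors.2 (by
          rw [mul_smul, mem_tors.1 y.2, smul_zero])⟩, by
            rw [AddMonoidHom.mem_ker]
            exact Subtype.ext (by rw [hφ]; exact mem_tors.1 y.2)⟩
        left_inv := fun x => rfl
        right_inv := fun y => rfl }
  -- count
  have h1 : Nat.card (tors J (n * m)) = Nat.card (tors J (n * m) ⧸ φ.ker) * Nat.card φ.ker :=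
    AddSubgroup.card_eq_card_quotient_mul_card_addSubgroup φ.ker
  have h2 : Nat.card (tors J (n * m) ⧸ φ.ker) = Nat.card φ.range :=
    Nat.card_congr (QuotientAddGroup.quotientKerEquivRange φ).toEquiv
  rw [hcard _ hnm, h2, hker, mul_pow] at h1
  have hmd : m ^ d ≠ 0 := pow_ne_zero _ hm
  have h3 : Nat.card φ.range = n ^ d := (Nat.eq_of_mul_eq_mul_right (Nat.pos_of_ne_zero hmd) h1).symm
  have htop : φ.range = ⊤ := by
    apply AddSubgroup.eq_top_of_card_eq
    rw [h3, hcard n hn]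
  have ht' : (⟨t, mem_tors.2 ht⟩ : tors J n) ∈ φ.range := by rw [htop]; trivial
  obtain ⟨x, hx⟩ := ht'
  exact ⟨(x : J), by rw [← hφ, hx]⟩

end Tors

section Red

variable {J J' : Type*} [AddCommGroup J] [AddCommGroup J']

/-- **(DIV), abstract form**: `MW ⊆ m • J` for every `m ≠ 0` prime to the auxiliary prime `ℓ`. -/
theorem exists_nsmul_eq_of_red (red : J →+ J') (MW : AddSubgroup J)
    (hfin : (red '' (MW : Set J)).Finite) {ℓ : ℕ} (hℓ : ℓ.Prime)
    (hK : ∀ M : ℕ, 1 ≤ M → ¬ ℓ ∣ M → ∀ x : J, red x = 0 → ∃ y : J, M • y = x)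
    (htors : ∀ n m : ℕ, n ≠ 0 → m ≠ 0 → ∀ t : J, n • t = 0 → ∃ t' : J, m • t' = t)
    {m : ℕ} (hm : m ≠ 0) (hmℓ : ¬ ℓ ∣ m) {z : J} (hz : z ∈ MW) : ∃ R : J, m • R = z := by
  classical
  -- 1. some multiple of `z` reduces to zero
  obtain ⟨n, hn0, hn⟩ : ∃ n : ℕ, n ≠ 0 ∧ n • red z = 0 := by
    have hF : Finite (red '' (MW : Set J)) := hfin.to_subtype
    let f : ℕ → (red '' (MW : Set J)) := fun k => ⟨red (k • z), ⟨k • z, MW.nsmul_mem hz k, rfl⟩⟩
    obtain ⟨a, b, hab, hfab⟩ := Finite.exists_ne_map_eq_of_infinite f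
    have hfab' : red (a • z) = red (b • z) := congrArg Subtype.val hfab
    rw [map_nsmul, map_nsmul] at hfab'
    rcases lt_or_gt_of_ne hab with h | h
    · refine ⟨b - a, by omega, ?_⟩
      have : b • red z = (b - a) • red z + a • red z := by
        rw [← add_nsmul]; congr 1; omega
      rw [this] at hfab'
      exact add_eq_right.mp hfab'.symm
    · refine ⟨a - b, by omega, ?_⟩
      have : a • red z = (a - b) • red z + b • red z := by
        rw [← add_nsmul]; congr 1; omega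
      rw [this] at hfab'
      exact add_eq_right.mp hfab'
  -- 2. split off the `ℓ`-part
  obtain ⟨e, n', hn'ℓ, hnn'⟩ := Nat.exists_eq_pow_mul_and_not_dvd hn0 ℓ hℓ.ne_one
  have hn'0 : n' ≠ 0 := by
    rintro rfl
    exact hn'ℓ (dvd_zero ℓ)
  -- 3. `n • z ∈ ker red` is `(m n')`-divisible
  have hM1 : 1 ≤ m * n' := Nat.one_le_iff_ne_zero.2 (mul_ne_zero hm hn'0)
  have hMℓ : ¬ ℓ ∣ m * n' := fun h => (hℓ.dvd_mul.1 h).elim hmℓ hn'ℓ
  obtain ⟨y, hy⟩ := hK (m * n') hM1 hMℓ (n • z) (by rw [map_nsmul, hn])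
  -- 4. the difference is `n'`-torsion
  have ht : n' • (ℓ ^ e • z - m • y) = 0 := by
    rw [smul_sub, ← mul_smul, ← mul_smul, mul_comm n' (ℓ ^ e), ← hnn', mul_comm n' m, hy,
      sub_self]
  obtain ⟨t', ht'⟩ := htors n' m hn'0 hm _ ht
  have hpow : ℓ ^ e • z = m • (y + t') := by
    rw [smul_add, ht']; abel
  -- 5. Bezout
  have hcop : Nat.Coprime (ℓ ^ e) m :=
    Nat.Coprime.pow_left e ((Nat.Prime.coprime_iff_not_dvd hℓ).2 hmℓ)
  have hb : (Nat.gcdA (ℓ ^ e) m) * ((ℓ ^ e : ℕ) : ℤ) + (Nat.gcdB (ℓ ^ e) m) * ((m : ℕ) : ℤ) = 1 := by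
    have := Nat.gcd_eq_gcd_ab (ℓ ^ e) m
    rw [hcop.gcd_eq_one] at this
    rw [mul_comm (Nat.gcdA _ _), mul_comm (Nat.gcdB _ _)]
    exact_mod_cast this.symm
  set a := Nat.gcdA (ℓ ^ e) m
  set b := Nat.gcdB (ℓ ^ e) m
  refine ⟨a • (y + t') + b • z, ?_⟩
  have h1 : z = (a * ((ℓ ^ e : ℕ) : ℤ) + b * ((m : ℕ) : ℤ)) • z := by rw [hb, one_smul]
  rw [smul_add, smul_comm m a, ← hpow, smul_comm m b]
  conv_rhs => rw [h1]
  rw [add_smul, mul_smul, mul_smul, natCast_zsmul, natCast_zsmul]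

end Red

end Fermat.Agent.GZ.LocP.DivAbs
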