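/-
GATE-Z (S15, Mazur block) / (LOC-p) leaf (DIV) (helper87; helper12 RULING-2, board 5985):
**the rational points of `J₀(N)(ℚ̄)` are divisible in `J₀(N)(ℚ̄)`.**

`exists_nsmul_eq N m hm z hz : ∃ R : JZero N, m • R = z` for every `m ≠ 0` and every `G_ℚ`-fixed
class `z`.  (S17 only ever used `A ∩ n B`; divisibility of `JZero N` itself was not on main.)

Proof (`GZ/LocP/DivAbs.exists_nsmul_eq_of_red`): pick an auxiliary prime `ℓ ≥ 5`, `ℓ ∤ N m`, a place
`A ∣ ℓ` of `ℚ̄`;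
* (FIN) the reduction of `J₀(N)(ℚ)` at `A` is finite (`GR/W/RedFin.finite_image_fixedPoints`), so
  `n • z ∈ ker red` for some `n ≠ 0`, `n = ℓ ^ e * n'`, `ℓ ∤ n'`;
* (K2) `ker (reductionModL A N) ⊆ M • J` for EVERY `M ≥ 1` prime to `ℓ` (the UPFV pair theorem
  `GR/W/K2/Upfv/Main.exists_nsmul_pair` holds for every such `M`, not only for primes:
  `pairHyp_of_not_dvd`, `exists_nsmul_of_mem_ker`), used with `M = m n'`;
* (CNT) `#J[M] = M ^ (2g)` (`GH/TorsionCount.natCard_torsion_JZero`) ⟹ `J[n'] ⊆ m • J`;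
* Bezout for `(ℓ ^ e, m)`.
-/
import Fermat.Agent.GZ.LocP.DivAbs
import Fermat.Agent.GR.W.K2.PairTop
import Fermat.Agent.GR.W.RedFin
import Fermat.Agent.GH.TorsionCount
import Fermat.Agent.Common_helper32.FrobeniusExists

set_option autoImplicit false
set_option synthInstance.maxHeartbeats 400000
set_option maxHeartbeats 1000000

noncomputable section

open AlgebraicCurve ModularCurve

namespace Fermat.Agent.GZ.LocP.Div

open Fermat.Agent.RRh45 Fermat.Agent.GJ.J1 Fermat.Agent.GJ.J1.Val Fermat.Agent.GJ.S37LSpace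
  Fermat.Agent.GJ.S37Bridge Fermat.Agent.GJ.S37BarToFull Fermat.Agent.S24
  Fermat.Agent.GH.Inst Fermat.Agent.GR.W.K2.KerGen Fermat.Agent.GR.W.K2.Top
  Fermat.Agent.GZ.LocP.DivAbs

local notation "Qb" => AlgebraicClosure ℚ
local notation "GQ" => (AlgebraicClosure ℚ ≃ₐ[ℚ] AlgebraicClosure ℚ)

variable {N : ℕ} [NeZero N] {A : ValuationSubring Qb}

/-- the abstract pair statement of `GR/W/K2/Top` for EVERY `M ≥ 1` prime to `ℓ`
(`GR/W/K2/PairTop.pairHyp` is the case `M` prime). -/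
theorem pairHyp_of_not_dvd {ℓ : ℕ} [Fact ℓ.Prime] (hℓN : ¬ ℓ ∣ N) (hA : A.LiesOverPrime ℓ)
    {M : ℕ} (hM : 1 ≤ M) (hMℓ : ¬ ℓ ∣ M) : PairHyp N A hℓN hA M := by
  have i1 := finiteResidues_bar N
  have i2 := hasPrincipalDivisors_bar N
  have i3 := nonempty_place_bar N
  have i4 := finiteResidues_fib N A
  have i5 := hasPrincipalDivisors_fib N A
  have i6 := nonempty_place_fib N A
  have i7 := infinite_kA A
  have hMk : ((M : ℕ) : kA A) ≠ 0 := by
    have hchar : CharP (kA A) ℓ := charP_kA A Fact.out hA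
    intro h0
    exact hMℓ ((CharP.cast_eq_zero_iff (kA A) ℓ M).mp h0)
  intro g c H n hn D hD
  obtain ⟨P, P', hPP', hDeq⟩ := hD
  exact Fermat.Agent.GR.W.K2.Upfv.Main.exists_nsmul_pair H hn hM hMk hPP' D hDeq

/-- **(K2) for every modulus prime to `ℓ`**: every class of `ker (reductionModL A N)` is
`M`-divisible in `JZero N`. -/
theorem exists_nsmul_of_mem_ker {ℓ : ℕ} [Fact ℓ.Prime] (hℓN : ¬ ℓ ∣ N) (h2 : ℓ = 2 → 3 ∣ N)
    (h3 : ℓ = 3 → 2 ∣ N) (hA : A.LiesOverPrime ℓ) {M : ℕ} (hM : 1 ≤ M) (hMℓ : ¬ ℓ ∣ M)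
    (x : JZero N) (hx : reductionModL A N x = 0) : ∃ y : JZero N, M • y = x :=
  exists_nsmul_of_pairHyp hℓN h2 h3 hA M (pairHyp_of_not_dvd hℓN hA hM hMℓ) x hx

omit [NeZero N] in
variable (N) in
/-- the torsion subgroup of `DivAbs` is the prelude's `Pic0.torsion`. -/
theorem tors_eq (M : ℕ) :
    tors (JZero N) M = Pic0.torsion Qb (modularFunctionFieldBar N) M := by
  ext x
  rw [mem_tors, Pic0.mem_torsion, natCast_zsmul]

variable (N) in
/-- **torsion classes are divisible** (by counting). -/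
theorem exists_nsmul_eq_of_torsion {n m : ℕ} (hn : n ≠ 0) (hm : m ≠ 0) {t : JZero N}
    (ht : n • t = 0) : ∃ t' : JZero N, m • t' = t :=
  exists_nsmul_eq_of_card (d := 2 * Module.finrank ℂ (CuspForm (CongruenceSubgroup.Gamma0 N) 2))
    (fun M hM => by
      rw [tors_eq]
      exact Fermat.Agent.GH.TorsionCount.natCard_torsion_JZero N M hM) hn hm ht

/-- **(DIV)**: every `G_ℚ`-fixed class of `J₀(N)(ℚ̄)` is `m`-divisible in `J₀(N)(ℚ̄)`. -/
theorem exists_nsmul_eq (N : ℕ) [NeZero N] (m : ℕ) (hm : m ≠ 0) (z : JZero N)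
    (hz : ∀ σ : GQ, σ • z = z) : ∃ R : JZero N, m • R = z := by
  have hN : 0 < N := Nat.pos_of_ne_zero (NeZero.ne N)
  have hm0 : 0 < m := Nat.pos_of_ne_zero hm
  obtain ⟨ℓ, hℓge, hℓ⟩ := Nat.exists_infinite_primes (max 5 (N * m) + 1)
  have h5 : 5 ≤ ℓ := by
    have := le_max_left 5 (N * m); omega
  have hNm : N * m < ℓ := by
    have := le_max_right 5 (N * m); omega
  have hNℓ : N < ℓ := lt_of_le_of_lt (Nat.le_mul_of_pos_right N hm0) hNm
  have hmℓ' : m < ℓ := lt_of_le_of_lt (Nat.le_mul_of_pos_left m hN) hNm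
  have hℓN : ¬ ℓ ∣ N := fun h => absurd (Nat.le_of_dvd hN h) (not_le.mpr hNℓ)
  have hmℓ : ¬ ℓ ∣ m := fun h => absurd (Nat.le_of_dvd hm0 h) (not_le.mpr hmℓ')
  obtain ⟨𝒜, h𝒜⟩ := Fermat.Agent.Common_helper32.exists_liesOverPrime ℓ hℓ
  haveI : Fact ℓ.Prime := ⟨hℓ⟩
  refine exists_nsmul_eq_of_red (reductionModL 𝒜 N) (FixedPoints.addSubgroup GQ (JZero N))
    (Fermat.Agent.GR.W.RedFin.finite_image_fixedPoints N hℓ hℓN (fun h => by omega)
      (fun h => by omega) 𝒜 h𝒜) hℓ ?_ ?_ hm hmℓ (show z ∈ FixedPoints.addSubgroup GQ (JZero N) from hz)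
  · intro M hM hMℓ x hx
    exact exists_nsmul_of_mem_ker hℓN (fun h => by omega) (fun h => by omega) h𝒜 hM hMℓ x hx
  · intro n m' hn hm' t ht
    exact exists_nsmul_eq_of_torsion N hn hm' ht

/-- helper12's `GZ/LocP/Top.DivHyp N`, unfolded, verbatim (`exact divHyp p` plugs the binder). -/
theorem divHyp (N : ℕ) [NeZero N] :
    ∀ z : JZero N, (∀ σ : GQ, σ • z = z) → ∀ m : ℕ, m ≠ 0 → ∃ R : JZero N, m • R = z :=
  fun z hz m hm => exists_nsmul_eq N m hm z hz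

end Fermat.Agent.GZ.LocP.Div
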