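/-
GATE-Z / GZ-LOCP (helper99): **`ChainHyp h A m 36` at level `p`, BINDER-FREE** — the `(CHAIN c)` binder
of helper73's `GB/A3/EisKill.eis_nsmul_mem` (board 6171) at `c = 36`:
`Node36.nodeHyp36` (helper26) ∘ `A5PKum.chain_of_node` (`GZ/LocP/A5PKum.lean`).

Level `p ≥ 5` prime (`h : ExactDvd p p`), `A ∣ p`, ANY `m ≠ 0`: an `I_A`-fixed `m`-divisible unit `u` of
`F_p` which is a unit for both Gauss valuations has `36 • [u] ∈ ker r₁ ⊓ ker r₂`.
-/
import Fermat.Agent.GZ.LocP.A5PKum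
import Fermat.Agent.GZ.LocP.Node36.Main
import Fermat.Agent.GB.A3.EisKill

set_option autoImplicit false

noncomputable section

namespace Fermat.Agent.GZ.LocP.A5PChain

open Fermat.Agent.GK.AL

/-- `ℚ̄`. -/
local notation "Qb" => AlgebraicClosure ℚ

variable {p : ℕ} [NeZero p] (A : ValuationSubring Qb) (h : ExactDvd p p)

/-- **`(CHAIN 36)` at level `p`**, binder-free. -/
theorem chainHyp36 (hp5 : 5 ≤ p) (hA : A.LiesOverPrime p) (m : ℕ) [NeZero m] :
    Fermat.Agent.GB.A3.EisKill.ChainHyp h A m 36 :=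
  Fermat.Agent.GZ.LocP.A5PKum.chain_of_node A h hp5 hA m 36
    (Fermat.Agent.GZ.LocP.Node36.nodeHyp36 h (by omega) hA m)

end Fermat.Agent.GZ.LocP.A5PChain
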