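/-
GATE-Z / GZ-LOCP (helper99): **(A5P) at the `Kum` level** — the shape pinned by helper30 (board 6094)
and consumed by helper73's `ChainHyp` (board 6171): the conclusion of `GZ/LocP/A5P.lean` in
`Kum_m(F_N)` language,

  `c • Additive.ofMul (Kum.mk u) ∈ kerRed N A m ⊓ kerRed₂ h A m`.

Bridge: `M0mod N A h m = kummerEquivFK (ker r₁ ⊓ ker r₂)` (`GZ/LocP/E2.exists_kum_of_mem_M0mod`,
helper30) + injectivity of the Kummer isomorphism.

* `mem_kerRed_inf_of_kummerEquivFK_mem` : `kummerEquivFK y ∈ M0mod ⟹ y ∈ ker r₁ ⊓ ker r₂`;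
* `nsmul_mk_mem_kerRed_inf_of_genus_zero` : the genus-zero core, any level `q ∥ N`;
* `a5p_kum` : level `p` (`5 ≤ p`), helper30's pinned shape (`c : ℕ`);
* `chain_of_node` : `NodeHypC h A m c` (unfolded, `c : ℕ` cast) ⟹ helper73's `ChainHyp h A m c`
  (unfolded).
-/
import Fermat.Agent.GZ.LocP.A5P
import Fermat.Agent.GZ.LocP.E2

set_option autoImplicit false

noncomputable section

namespace Fermat.Agent.GZ.LocP.A5PKum

open AlgebraicCurve ModularCurve IsLocalRing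
open Fermat.Agent.GJ.KumGroup Fermat.Agent.GJ.Kum.KumType Fermat.Agent.GK.AL
open Fermat.Agent.GK.UqKronecker Fermat.Agent.GJ.J1.Val Fermat.Agent.GJ.J1.InstGen
open Fermat.Agent.GB.A.FP Fermat.Agent.GS.F Fermat.Agent.GH.KummerPic
open Fermat.Agent.GH.TorsionCount Fermat.Agent.GH.KummerEquivariant
open Fermat.Agent.GS.Nodal.Inst

/-- `ℚ̄`. -/
local notation "Qb" => AlgebraicClosure ℚ

attribute [local instance] isAlgClosed_res finiteResidues_Fres hasPrincipalDivisors_Fres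
  nonempty_place_Fres

section Bridge

variable {N q : ℕ} [NeZero N] (h : ExactDvd q N) {A : ValuationSubring Qb}

/-- the Kummer isomorphism reflects the toric part: `kummerEquivFK y ∈ M⁰_m ⟹ y ∈ ker r₁ ⊓ ker r₂`. -/
theorem mem_kerRed_inf_of_kummerEquivFK_mem {m : ℕ} [NeZero m] {y : Additive (Kum Qb (FK N) m)}
    (hy : ((kummerEquivFK N m y : Pic0.torsion Qb (FK N) m) : JZero N) ∈ M0mod N A h m) :
    y ∈ kerRed N A m ⊓ kerRed₂ h A m := by
  obtain ⟨y', h1, h2, hy'⟩ := Fermat.Agent.GZ.LocP.E2.exists_kum_of_mem_M0mod h hy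
  have e : y' = y := (kummerEquivFK N m).injective (Subtype.ext hy')
  rw [← e]
  exact ⟨h1, h2⟩

/-- `kummerEquivFK (c • [u]) = c • kum0 u` in `J₀(N)`. -/
theorem coe_kummerEquivFK_nsmul_mk {m : ℕ} [NeZero m] (c : ℕ) (u : pDivUnits Qb (FK N) m) :
    haveI := hasPrincipalDivisors_FK N
    ((kummerEquivFK N m (c • Additive.ofMul (Kum.mk u)) : Pic0.torsion Qb (FK N) m) : JZero N) =
      c • (kum0 (K := Qb) (F := FK N) m (Additive.ofMul u) : JZero N) := by
  have := hasPrincipalDivisors_FK N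
  rw [map_nsmul, AddSubgroup.coe_nsmul, coe_kummerEquivFK_mk, kum0_apply]

end Bridge

section Core

variable {N q : ℕ} [NeZero N] [NeZero q] (h : ExactDvd q N) (A : ValuationSubring Qb)

/-- **the genus-zero core, `Kum` level**: any level `q ∥ N` with `g(FresBar N A) = 0`. -/
theorem nsmul_mk_mem_kerRed_inf_of_genus_zero (hA : A.LiesOverPrime q)
    (hgen : genusRR (ResidueField A) (FresBar N A) = 0) {m : ℕ} [NeZero m] (c : ℕ)
    (u : pDivUnits Qb (FK N) m) (hu : BothUnit h A (u : (FK N)ˣ))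
    (h1 : ∀ Q : Place (ResidueField A) (FresBar N A),
      (m : ℤ) ∣ (c : ℤ) * Q.ord ((redUnit₁ hu : (FresBar N A)ˣ) : FresBar N A))
    (h2 : ∀ Q : Place (ResidueField A) (FresBar N A),
      (m : ℤ) ∣ (c : ℤ) * Q.ord ((redUnit₂ hu : (FresBar N A)ˣ) : FresBar N A)) :
    c • Additive.ofMul (Kum.mk u) ∈ kerRed N A m ⊓ kerRed₂ h A m := by
  apply mem_kerRed_inf_of_kummerEquivFK_mem h
  rw [coe_kummerEquivFK_nsmul_mk]
  exact Fermat.Agent.GZ.LocP.A5P.nsmul_kum0_mem_M0mod_of_genus_zero h A hA hgen c u hu h1 h2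

end Core

section LevelP

variable {p : ℕ} [NeZero p] (A : ValuationSubring Qb) (h : ExactDvd p p)

/-- **(A5P), `Kum` level** (helper30's pinned shape, board 6094): level `p ≥ 5`, `A ∣ p`, ANY
`m ≠ 0`; no `I_A`-fixedness needed. -/
theorem a5p_kum (hp5 : 5 ≤ p) (hA : A.LiesOverPrime p) (m : ℕ) [NeZero m] (c : ℕ)
    (u : pDivUnits Qb (FK p) m) (hu : BothUnit h A (u : (FK p)ˣ))
    (h1 : ∀ Q : Place (ResidueField A) (FresBar p A),
      (m : ℤ) ∣ (c : ℤ) * Q.ord ((redUnit₁ hu : (FresBar p A)ˣ) : FresBar p A))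
    (h2 : ∀ Q : Place (ResidueField A) (FresBar p A),
      (m : ℤ) ∣ (c : ℤ) * Q.ord ((redUnit₂ hu : (FresBar p A)ˣ) : FresBar p A)) :
    c • Additive.ofMul (Kum.mk u) ∈ kerRed p A m ⊓ kerRed₂ h A m := by
  apply mem_kerRed_inf_of_kummerEquivFK_mem h
  rw [coe_kummerEquivFK_nsmul_mk]
  exact Fermat.Agent.GZ.LocP.A5P.a5p A h hA (by omega) (by omega) m c u hu h1 h2

/-- **NODE ∘ A5P, `Kum` level**: the (unfolded) `NodeHypC h A m c` of helper26 gives the (unfolded)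
`ChainHyp h A m c` of helper73 (board 6171). -/
theorem chain_of_node (hp5 : 5 ≤ p) (hA : A.LiesOverPrime p) (m : ℕ) [NeZero m] (c : ℕ)
    (hnode : ∀ u : pDivUnits Qb (FK p) m,
      (∀ σ ∈ A.inertiaSubgroupIn ℚ, galUnits p σ (u : (FK p)ˣ) = (u : (FK p)ˣ)) →
      ∀ hu : BothUnit h A (u : (FK p)ˣ),
        (∀ Q : Place (ResidueField A) (FresBar p A),
          (m : ℤ) ∣ (c : ℤ) * Q.ord ((redUnit₁ hu : (FresBar p A)ˣ) : FresBar p A)) ∧
        (∀ Q : Place (ResidueField A) (FresBar p A),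
          (m : ℤ) ∣ (c : ℤ) * Q.ord ((redUnit₂ hu : (FresBar p A)ˣ) : FresBar p A))) :
    ∀ u : pDivUnits Qb (FK p) m,
      (∀ σ ∈ A.inertiaSubgroupIn ℚ, galUnits p σ (u : (FK p)ˣ) = (u : (FK p)ˣ)) →
      BothUnit h A (u : (FK p)ˣ) →
        c • Additive.ofMul (Kum.mk u) ∈ kerRed p A m ⊓ kerRed₂ h A m :=
  fun u hfix hu => a5p_kum A h hp5 hA m c u hu (hnode u hfix hu).1 (hnode u hfix hu).2

end LevelP

end Fermat.Agent.GZ.LocP.A5PKum
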