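/-
GATE-Z / GZ-LOCP (helper99): **NODE36 ∘ A5P, BINDER-FREE** — the composition of helper26's
`Node36.nodeHyp36` (`GZ/LocP/Node36/Main.lean`) with `A5P.a5p_of_node` (`GZ/LocP/A5P.lean`):

at the prime level `p ≠ 2, 3`, `A ∣ p`, EVERY `m ≠ 0`: an `I_A`-fixed `m`-divisible unit `u` of `F_p`
which is a unit for both Gauss valuations has `36 • [u] ∈ M0mod p A h m`.

* `thirtysix_zsmul_mem_M0mod` (`(36 : ℤ) • ·`), `thirtysix_nsmul_mem_M0mod` (`(36 : ℕ) • ·`).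
-/
import Fermat.Agent.GZ.LocP.A5P
import Fermat.Agent.GZ.LocP.Node36.Main

set_option autoImplicit false

noncomputable section

namespace Fermat.Agent.GZ.LocP.A5PNode

open AlgebraicCurve ModularCurve
open Fermat.Agent.GJ.KumGroup Fermat.Agent.GJ.Kum.KumType Fermat.Agent.GK.AL
open Fermat.Agent.GB.A.FP Fermat.Agent.GS.F Fermat.Agent.GH.KummerPic
open Fermat.Agent.GH.TorsionCount

/-- `ℚ̄`. -/
local notation "Qb" => AlgebraicClosure ℚ

variable {p : ℕ} [NeZero p] (A : ValuationSubring Qb) (h : ExactDvd p p)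

/-- **NODE36 ∘ A5P**: `36 • [u] ∈ M⁰_m` for every `I_A`-fixed `BothUnit` `m`-divisible unit `u` of
`F_p` (`p ≠ 2, 3` prime, `A ∣ p`, any `m ≠ 0`). -/
theorem thirtysix_zsmul_mem_M0mod (hA : A.LiesOverPrime p) (hp2 : p ≠ 2) (hp3 : p ≠ 3) (m : ℕ)
    [NeZero m] (u : pDivUnits Qb (FK p) m)
    (hfix : ∀ σ ∈ A.inertiaSubgroupIn ℚ, galUnits p σ (u : (FK p)ˣ) = (u : (FK p)ˣ))
    (hu : BothUnit h A (u : (FK p)ˣ)) :
    haveI := hasPrincipalDivisors_FK p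
    (36 : ℤ) • (kum0 (K := Qb) (F := FK p) m (Additive.ofMul u) : JZero p) ∈ M0mod p A h m :=
  Fermat.Agent.GZ.LocP.A5P.a5p_of_node A h hA hp2 hp3 m 36
    (Fermat.Agent.GZ.LocP.Node36.nodeHyp36 h hp2 hA m) u hfix hu

/-- the same with `ℕ`-multiples. -/
theorem thirtysix_nsmul_mem_M0mod (hA : A.LiesOverPrime p) (hp2 : p ≠ 2) (hp3 : p ≠ 3) (m : ℕ)
    [NeZero m] (u : pDivUnits Qb (FK p) m)
    (hfix : ∀ σ ∈ A.inertiaSubgroupIn ℚ, galUnits p σ (u : (FK p)ˣ) = (u : (FK p)ˣ))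
    (hu : BothUnit h A (u : (FK p)ˣ)) :
    haveI := hasPrincipalDivisors_FK p
    (36 : ℕ) • (kum0 (K := Qb) (F := FK p) m (Additive.ofMul u) : JZero p) ∈ M0mod p A h m := by
  have := hasPrincipalDivisors_FK p
  have h0 := thirtysix_zsmul_mem_M0mod A h hA hp2 hp3 m u hfix hu
  have e : (36 : ℤ) • (kum0 (K := Qb) (F := FK p) m (Additive.ofMul u) : JZero p) =
      (36 : ℕ) • (kum0 (K := Qb) (F := FK p) m (Additive.ofMul u) : JZero p) := by
    rw [← natCast_zsmul]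
    rfl
  rwa [e] at h0

end Fermat.Agent.GZ.LocP.A5PNode
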