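/-
GATE-Z / GZ-LOCP (helper12), leaf ABS + COUNT: the formal half of `(LOCP*)` of helper20 5806 R1,
torsion-only route (RULING board 5926).  Mathlib only.

Setting: `J` an abelian group with an action of `G`, `I ≤ G` ("inertia"), `m = r ^ k`,
`V = J[m]`, `T ≤ V` the toric part, `τ ∈ I` a tame generator.

* `exists_fixed_root` (ABS): if `z` has an `m`-th root `R₀`, `τ R₀ - R₀ ∈ T` for every root (E1),
  every `t ∈ T` satisfies `n • t = τ v - v` for some `v ∈ J[m]` (ND), and `τ`-fixed roots of `n • z`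
  are `I`-fixed (E3), then `n • z` has an `I`-fixed `m`-th root `R = n • R₀ - v`.
* `card_quotient_range_mul` / `factorial_nsmul_mem_range_of_card` (COUNT, abstract): for an
  endomorphism `N` of a finite abelian group `V` with `N V ≤ T`:
  `#(T / N V) · #V = #T · #ker N`, hence if `q² ≤ #V`, `#T ≤ c₁ q`, `#ker N ≤ c₂ #T`, the quotient
  `T / N V` has order `≤ c₁² c₂` and is killed by `(c₁² c₂)!` — a bound INDEPENDENT of `q`.
* `nd_of_card` (COUNT inside `J`): the same for `N = τ - 1` on a finite `τ`-stable subgroup `V ≤ J`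
  with `(τ - 1) V ≤ T ≤ V`, in the shape of the hypothesis (ND) of `exists_fixed_root`.
* `exists_fixed_root_of_card` : ABS ∘ COUNT.
-/
import Mathlib

set_option autoImplicit false

namespace Fermat.Agent.GZ.LocP.Abs

open scoped Nat

section ABS

variable {G J : Type*} [Group G] [AddCommGroup J] [DistribMulAction G J]

/-- **ABS**: the corrected root `R = n • R₀ - v`. -/
theorem exists_fixed_root (I : Subgroup G) (m n : ℕ) (T : AddSubgroup J) (τ : G) (z : J)
    (hdiv : ∃ R : J, m • R = z)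
    (hE1 : ∀ R : J, m • R = z → τ • R - R ∈ T)
    (hND : ∀ t ∈ T, ∃ v : J, m • v = 0 ∧ τ • v - v = n • t)
    (hE3 : ∀ R : J, m • R = n • z → τ • R = R → ∀ σ ∈ I, σ • R = R) :
    ∃ R : J, m • R = n • z ∧ ∀ σ ∈ I, σ • R = R := by
  obtain ⟨R₀, hR₀⟩ := hdiv
  obtain ⟨v, hv0, hv⟩ := hND _ (hE1 R₀ hR₀)
  have hroot : m • (n • R₀ - v) = n • z := by
    rw [smul_sub, hv0, sub_zero, smul_comm, hR₀]
  refine ⟨n • R₀ - v, hroot, hE3 _ hroot ?_⟩
  have h1 : τ • (n • R₀ - v) = n • τ • R₀ - τ • v := by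
    rw [smul_sub, smul_comm]
  rw [h1]
  have h2 : τ • v = v + (n • τ • R₀ - n • R₀) := by
    rw [← smul_sub, ← hv]
    abel
  rw [h2]
  abel

end ABS

section COUNT

variable {V : Type*} [AddCommGroup V]

/-- `#(T / N V) · #V = #T · #ker N` for an endomorphism `N` of a finite abelian group with
`N V ≤ T`. -/
theorem card_quotient_range_mul [Finite V] (N : V →+ V) (T : AddSubgroup V) (hNT : N.range ≤ T) :
    Nat.card (T ⧸ N.range.addSubgroupOf T) * Nat.card V = Nat.card T * Nat.card N.ker := by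
  have h1 : Nat.card T =
      Nat.card (T ⧸ N.range.addSubgroupOf T) * Nat.card (N.range.addSubgroupOf T) :=
    AddSubgroup.card_eq_card_quotient_mul_card_addSubgroup _
  have h2 : Nat.card (N.range.addSubgroupOf T) = Nat.card N.range :=
    Nat.card_congr (AddSubgroup.addSubgroupOfEquivOfLe hNT).toEquiv
  have h3 : Nat.card V = Nat.card (V ⧸ N.ker) * Nat.card N.ker :=
    AddSubgroup.card_eq_card_quotient_mul_card_addSubgroup _
  have h4 : Nat.card (V ⧸ N.ker) = Nat.card N.range :=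
    Nat.card_congr (QuotientAddGroup.quotientKerEquivRange N).toEquiv
  rw [h1, h2, h3, h4]
  ring

/-- **COUNT (abstract)**: the bound `(c₁² c₂)!` kills `T / N V`, independently of `q`. -/
theorem factorial_nsmul_mem_range_of_card [Finite V] (N : V →+ V) (T : AddSubgroup V)
    (hNT : N.range ≤ T) (c₁ c₂ q : ℕ) (_hq : 0 < q) (hV : q ^ 2 ≤ Nat.card V)
    (hT : Nat.card T ≤ c₁ * q) (hK : Nat.card N.ker ≤ c₂ * Nat.card T) :
    ∀ t ∈ T, (c₁ ^ 2 * c₂)! • t ∈ N.range := by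
  intro t ht
  have hcard := card_quotient_range_mul N T hNT
  have hVpos : 0 < Nat.card V := Nat.card_pos
  -- the order of the quotient is at most `c₁² c₂`
  have hQ : Nat.card (T ⧸ N.range.addSubgroupOf T) ≤ c₁ ^ 2 * c₂ := by
    have hle : Nat.card (T ⧸ N.range.addSubgroupOf T) * Nat.card V ≤
        (c₁ ^ 2 * c₂) * Nat.card V := by
      calc Nat.card (T ⧸ N.range.addSubgroupOf T) * Nat.card V
          = Nat.card T * Nat.card N.ker := hcard
        _ ≤ Nat.card T * (c₂ * Nat.card T) := Nat.mul_le_mul_left _ hK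
        _ ≤ (c₁ * q) * (c₂ * (c₁ * q)) :=
            Nat.mul_le_mul hT (Nat.mul_le_mul_left _ hT)
        _ = (c₁ ^ 2 * c₂) * q ^ 2 := by ring
        _ ≤ (c₁ ^ 2 * c₂) * Nat.card V := Nat.mul_le_mul_left _ hV
    exact Nat.le_of_mul_le_mul_right hle hVpos
  have hQpos : 0 < Nat.card (T ⧸ N.range.addSubgroupOf T) := Nat.card_pos
  have hdvd : Nat.card (T ⧸ N.range.addSubgroupOf T) ∣ (c₁ ^ 2 * c₂)! :=
    Nat.dvd_factorial hQpos hQ
  -- hence `(c₁² c₂)!` kills the class of `t`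
  have hkill : (c₁ ^ 2 * c₂)! • (QuotientAddGroup.mk (⟨t, ht⟩ : T) :
      T ⧸ N.range.addSubgroupOf T) = 0 := by
    obtain ⟨d, hd⟩ := hdvd
    rw [hd, mul_comm, mul_smul, card_nsmul_eq_zero', smul_zero]
  rw [← QuotientAddGroup.mk_nsmul, QuotientAddGroup.eq_zero_iff] at hkill
  exact hkill

end COUNT

section COUNTJ

variable {G J : Type*} [Group G] [AddCommGroup J] [DistribMulAction G J]

/-- the endomorphism `τ - 1` of a `τ`-stable subgroup -/
def tauSub (τ : G) (V : AddSubgroup J) (hτV : ∀ v ∈ V, τ • v ∈ V) : V →+ V where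
  toFun v := ⟨τ • (v : J) - v, V.sub_mem (hτV _ v.2) v.2⟩
  map_zero' := by
    ext
    simp
  map_add' a b := by
    ext
    simp only [AddSubgroup.coe_add, smul_add]
    abel

@[simp] theorem coe_tauSub (τ : G) (V : AddSubgroup J) (hτV : ∀ v ∈ V, τ • v ∈ V) (v : V) :
    ((tauSub τ V hτV v : V) : J) = τ • (v : J) - v := rfl

/-- the `τ`-fixed points of `J` -/
def fixedBy (τ : G) : AddSubgroup J where
  carrier := {v | τ • v = v}
  zero_mem' := smul_zero τ
  add_mem' {a b} ha hb := by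
    simp only [Set.mem_ofPred_eq] at ha hb ⊢
    rw [smul_add, ha, hb]
  neg_mem' {a} ha := by
    simp only [Set.mem_ofPred_eq] at ha ⊢
    rw [smul_neg, ha]

@[simp] theorem mem_fixedBy {τ : G} {v : J} : v ∈ (fixedBy τ : AddSubgroup J) ↔ τ • v = v :=
  Iff.rfl

/-- **COUNT inside `J`**, in the shape of (ND): `V` finite `τ`-stable, `(τ - 1) V ≤ T ≤ V`,
`q² ≤ #V`, `#T ≤ c₁ q`, `#V^τ ≤ c₂ #T` ⟹ every `t ∈ T` has `(c₁² c₂)! • t = τ v - v`, `v ∈ V`. -/
theorem nd_of_card (τ : G) (V T : AddSubgroup J) [Finite V] (hτV : ∀ v ∈ V, τ • v ∈ V)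
    (hTV : T ≤ V) (hU : ∀ v ∈ V, τ • v - v ∈ T) (c₁ c₂ q : ℕ) (hq : 0 < q)
    (hV : q ^ 2 ≤ Nat.card V) (hT : Nat.card T ≤ c₁ * q)
    (hK : Nat.card ↥(V ⊓ fixedBy τ) ≤ c₂ * Nat.card T) :
    ∀ t ∈ T, ∃ v ∈ V, τ • v - v = (c₁ ^ 2 * c₂)! • t := by
  intro t ht
  have hcT : Nat.card ↥(T.addSubgroupOf V) = Nat.card T :=
    Nat.card_congr (AddSubgroup.addSubgroupOfEquivOfLe hTV).toEquiv
  have hNT : (tauSub τ V hτV).range ≤ T.addSubgroupOf V := by
    rintro _ ⟨v, rfl⟩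
    rw [AddSubgroup.mem_addSubgroupOf, coe_tauSub]
    exact hU _ v.2
  have hker : Nat.card (tauSub τ V hτV).ker = Nat.card ↥(V ⊓ fixedBy τ) := by
    refine Nat.card_congr
      { toFun := fun v => ⟨((v : V) : J), ⟨(v : V).2, ?_⟩⟩
        invFun := fun w => ⟨⟨(w : J), w.2.1⟩, ?_⟩
        left_inv := fun v => rfl
        right_inv := fun w => rfl }
    · have hv : tauSub τ V hτV (v : V) = 0 := v.2
      have hv' : τ • ((v : V) : J) - ((v : V) : J) = 0 :=
        congrArg (fun x : V => (x : J)) hv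
      exact sub_eq_zero.1 hv'
    · rw [AddMonoidHom.mem_ker]
      apply Subtype.ext
      rw [coe_tauSub]
      have hw : τ • (w : J) = w := w.2.2
      simp [hw]
  have key := factorial_nsmul_mem_range_of_card (tauSub τ V hτV) (T.addSubgroupOf V) hNT c₁ c₂ q
    hq hV (hcT ▸ hT) (by rw [hker, hcT]; exact hK) ⟨t, hTV ht⟩
    (by rw [AddSubgroup.mem_addSubgroupOf]; exact ht)
  obtain ⟨v, hv⟩ := key
  refine ⟨(v : J), v.2, ?_⟩
  have := congrArg (fun x : V => (x : J)) hv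
  simpa using this

/-- **ABS ∘ COUNT**: `(LOCP*)` for one `z` and one `m`, from (DIV) (E1) (E3) and the three
cardinality bounds. -/
theorem exists_fixed_root_of_card (I : Subgroup G) (m : ℕ) (V T : AddSubgroup J) [Finite V]
    (τ : G) (z : J) (hVm : ∀ v ∈ V, m • v = 0) (hτV : ∀ v ∈ V, τ • v ∈ V) (hTV : T ≤ V)
    (hU : ∀ v ∈ V, τ • v - v ∈ T) (c₁ c₂ q : ℕ) (hq : 0 < q) (hV : q ^ 2 ≤ Nat.card V)
    (hT : Nat.card T ≤ c₁ * q) (hK : Nat.card ↥(V ⊓ fixedBy τ) ≤ c₂ * Nat.card T)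
    (hdiv : ∃ R : J, m • R = z)
    (hE1 : ∀ R : J, m • R = z → τ • R - R ∈ T)
    (hE3 : ∀ R : J, m • R = (c₁ ^ 2 * c₂)! • z → τ • R = R → ∀ σ ∈ I, σ • R = R) :
    ∃ R : J, m • R = (c₁ ^ 2 * c₂)! • z ∧ ∀ σ ∈ I, σ • R = R := by
  refine exists_fixed_root I m _ T τ z hdiv hE1 ?_ hE3
  intro t ht
  obtain ⟨v, hvV, hv⟩ := nd_of_card τ V T hτV hTV hU c₁ c₂ q hq hV hT hK t ht
  exact ⟨v, hVm v hvV, hv⟩

end COUNTJ

end Fermat.Agent.GZ.LocP.Abs
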