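/-
GATE-Z / GZ-LOCP (helper12), TOP of the node: **`(LOCP*)` of helper20 5806 R1 from the five leaves**
of the torsion-only route (RULING board 5926 / 5985), in hypothesis form.

`p` a level (`p` prime in the application), `A` a place of `ℚ̄` over `p`, `h : ExactDvd p p`,
`I = A.inertiaSubgroupIn ℚ`, `r` a prime `≠ p`, `V_k = J₀(p)[r^k]`, `T_k = M0mod p A h (r^k)` the
toric part (`GS/F/Modular.lean`), `g = dim S₂(Γ₀(p))`.

Leaves (each a `def … : Prop`, to be discharged VERBATIM by its owner):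

* `DivHyp p`        (DIV)  rational classes are divisible in `J₀(p)(ℚ̄)`;
* `E1Hyp p A h`     (E1)   `σ ∈ I`, `m • R` rational ⟹ `σ • R - R ∈ M0mod p A h m`;
* `E3Hyp p A r`     (E3)   for every `k` a tame generator `τ_k ∈ I`: a `τ_k`-fixed `r^k`-th root of a
                           rational class is `I`-fixed;
* `TBHyp p A h r`   (a)    `#T_k ≤ c₁ (r^k)^g`;
* `BOBHyp p A h r`  (b)    `#(V_k)^I ≤ c₂ #T_k`.

Cited from main: (U) `GS.F.smul_sub_mem_M0mod`, (C1) `GH.TorsionCount.natCard_torsion_JZero`.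

* `locpStar_of_leaves` : the five leaves ⟹
  `∃ n > 0, ∀ z rational, ∀ k, ∃ R, r^k • R = n • z ∧ ∀ σ ∈ I, σ • R = R`, `n = (c₁² c₂)!`.
* `locpStar_exists`    : the `∃ A over p` spelling of 5806.
-/
import Fermat.Agent.GZ.LocP.Abs
import Fermat.Agent.GS.F.Modular
import Fermat.Agent.GH.TorsionCount

set_option autoImplicit false
set_option linter.unusedSectionVars false

noncomputable section

namespace Fermat.Agent.GZ.LocP.Top

open AlgebraicCurve ModularCurve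
open Fermat.Agent.GS.F Fermat.Agent.GK.AL Fermat.Agent.GJ.KumGroup
open Fermat.Agent.GH.TorsionCount
open scoped Nat

/-- `ℚ̄` -/
local notation "Qb" => AlgebraicClosure ℚ
/-- `G_ℚ` -/
local notation "GQ" => (AlgebraicClosure ℚ ≃ₐ[ℚ] AlgebraicClosure ℚ)

variable (p : ℕ) [NeZero p] (A : ValuationSubring Qb) (h : ExactDvd p p) (r : ℕ) [NeZero r]

/-- the genus `g = dim S₂(Γ₀(p))`, in the spelling of `GH/TorsionCount` -/
abbrev genus : ℕ := Module.finrank ℂ (CuspForm (CongruenceSubgroup.Gamma0 p) 2)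

/-- **(DIV)** rational classes are divisible in `J₀(p)(ℚ̄)`. -/
def DivHyp : Prop :=
  ∀ z : JZero p, (∀ σ : GQ, σ • z = z) → ∀ m : ℕ, m ≠ 0 → ∃ R : JZero p, m • R = z

/-- **(E1)** inertia moves an `m`-th root of a rational class by an element of the toric part. -/
def E1Hyp : Prop :=
  ∀ (m : ℕ) [NeZero m], ∀ σ ∈ A.inertiaSubgroupIn ℚ, ∀ R : JZero p,
    (∀ g : GQ, g • (m • R) = m • R) → σ • R - R ∈ M0mod p A h m

/-- **(E3)** a tame generator at each level `r^k`. -/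
def E3Hyp : Prop :=
  ∀ k : ℕ, ∃ τ ∈ A.inertiaSubgroupIn ℚ, ∀ R : JZero p,
    (∀ g : GQ, g • (r ^ k • R) = r ^ k • R) → τ • R = R →
      ∀ σ ∈ A.inertiaSubgroupIn ℚ, σ • R = R

/-- **(a) = (TB)** the toric part is at most half of the torsion, up to a constant. -/
def TBHyp : Prop :=
  ∃ c₁ : ℕ, ∀ k : ℕ, Nat.card (M0mod p A h (r ^ k)) ≤ c₁ * (r ^ k) ^ genus p

/-- **(b) = (BOB)** the inertia invariants of the torsion are the toric part, up to a constant. -/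
def BOBHyp : Prop :=
  ∃ c₂ : ℕ, ∀ k : ℕ,
    Nat.card {v : JZero p // r ^ k • v = 0 ∧ ∀ σ ∈ A.inertiaSubgroupIn ℚ, σ • v = v} ≤
      c₂ * Nat.card (M0mod p A h (r ^ k))

variable {p A h r}

/-- `G_ℚ` commutes with multiplication by `n` -/
theorem gal_nsmul (g : GQ) (n : ℕ) (x : JZero p) : g • (n • x) = n • (g • x) :=
  map_nsmul (DistribSMul.toAddMonoidHom (JZero p) g) n x

/-- `G_ℚ` fixes `0` -/
theorem gal_zero (g : GQ) : g • (0 : JZero p) = 0 :=
  map_zero (DistribSMul.toAddMonoidHom (JZero p) g)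

/-- a rational class stays rational under `n • ·` -/
theorem smul_nsmul_of_rational {z : JZero p} (hz : ∀ σ : GQ, σ • z = z) (n : ℕ) (g : GQ) :
    g • (n • z) = n • z := by
  rw [gal_nsmul, hz g]

/-- **`(LOCP*)` from the five leaves**, for a fixed place `A`. -/
theorem locpStar_of_leaves (hA : A.LiesOverPrime p) (hDIV : DivHyp p) (hE1 : E1Hyp p A h)
    (hE3 : E3Hyp p A r) (hTB : TBHyp p A h r) (hBOB : BOBHyp p A h r) :
    ∃ n : ℕ, 0 < n ∧ ∀ z : JZero p, (∀ σ : GQ, σ • z = z) → ∀ k : ℕ,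
      ∃ R : JZero p, r ^ k • R = n • z ∧ ∀ σ ∈ A.inertiaSubgroupIn ℚ, σ • R = R := by
  obtain ⟨c₁, hc₁⟩ := hTB
  obtain ⟨c₂, hc₂⟩ := hBOB
  refine ⟨(c₁ ^ 2 * c₂)!, Nat.factorial_pos _, fun z hz k => ?_⟩
  obtain ⟨τ, hτ, hτ3⟩ := hE3 k
  have hm0 : r ^ k ≠ 0 := pow_ne_zero k (NeZero.ne r)
  have : Finite ↥(Pic0.torsion Qb (FK p) (r ^ k)) := finite_torsion p (r ^ k) hm0
  -- torsion in `ℕ`-spelling
  have hVm : ∀ v ∈ Pic0.torsion Qb (FK p) (r ^ k), r ^ k • v = 0 := fun v hv => by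
    have := Pic0.mem_torsion.1 hv
    rwa [natCast_zsmul] at this
  have hVm' : ∀ v : JZero p, r ^ k • v = 0 → v ∈ Pic0.torsion Qb (FK p) (r ^ k) := fun v hv => by
    refine Pic0.mem_torsion.2 ?_
    rwa [natCast_zsmul]
  have hτV : ∀ v ∈ Pic0.torsion Qb (FK p) (r ^ k), τ • v ∈ Pic0.torsion Qb (FK p) (r ^ k) :=
    fun v hv => hVm' _ (by rw [← gal_nsmul, hVm v hv, gal_zero])
  have hTV : M0mod p A h (r ^ k) ≤ Pic0.torsion Qb (FK p) (r ^ k) := M0_le_torsion (r ^ k)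
  have hU : ∀ v ∈ Pic0.torsion Qb (FK p) (r ^ k), τ • v - v ∈ M0mod p A h (r ^ k) :=
    fun v hv => smul_sub_mem_M0mod hA hτ (Pic0.mem_torsion.1 hv)
  have hq : 0 < (r ^ k) ^ genus p := Nat.pos_of_ne_zero (pow_ne_zero _ hm0)
  have hV : ((r ^ k) ^ genus p) ^ 2 ≤ Nat.card ↥(Pic0.torsion Qb (FK p) (r ^ k)) := by
    have hcard := natCard_torsion_JZero p (r ^ k) hm0
    have hcard' : Nat.card ↥(Pic0.torsion Qb (FK p) (r ^ k)) = (r ^ k) ^ (2 * genus p) := hcard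
    rw [hcard', ← pow_mul, mul_comm]
  -- `τ`-fixed torsion is `I`-fixed torsion
  have hK : Nat.card ↥(Pic0.torsion Qb (FK p) (r ^ k) ⊓ Abs.fixedBy τ) ≤
      c₂ * Nat.card (M0mod p A h (r ^ k)) := by
    refine le_trans ?_ (hc₂ k)
    have : Finite {v : JZero p // r ^ k • v = 0 ∧ ∀ σ ∈ A.inertiaSubgroupIn ℚ, σ • v = v} :=
      Finite.of_injective (fun v => (⟨v.1, hVm' v.1 v.2.1⟩ : ↥(Pic0.torsion Qb (FK p) (r ^ k))))
        (fun a b hab => Subtype.ext (by have := congrArg Subtype.val hab; exact this))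
    refine Nat.card_le_card_of_injective
      (fun v => ⟨(v : JZero p), hVm _ v.2.1, hτ3 (v : JZero p) (fun g => ?_) v.2.2⟩)
      (fun a b hab => Subtype.ext (by have := congrArg Subtype.val hab; exact this))
    rw [hVm _ v.2.1, gal_zero]
  exact Abs.exists_fixed_root_of_card (A.inertiaSubgroupIn ℚ) (r ^ k)
    (Pic0.torsion Qb (FK p) (r ^ k)) (M0mod p A h (r ^ k)) τ z hVm hτV hTV hU c₁ c₂
    ((r ^ k) ^ genus p) hq hV (hc₁ k) hK (hDIV z hz (r ^ k) hm0)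
    (fun R hR => hE1 (r ^ k) τ hτ R (fun g => by rw [hR, hz g]))
    (fun R hR => hτ3 R (fun g => by rw [hR, smul_nsmul_of_rational hz]))

/-- **`(LOCP*)`** in the spelling of helper20 5806 R1: `∃ A` over `p`, `∃ n > 0`, … -/
theorem locpStar_exists
    (hex : ∃ A : ValuationSubring Qb, A.LiesOverPrime p ∧ DivHyp p ∧ E1Hyp p A h ∧ E3Hyp p A r ∧
      TBHyp p A h r ∧ BOBHyp p A h r) :
    ∃ A : ValuationSubring Qb, A.LiesOverPrime p ∧ ∃ n : ℕ, 0 < n ∧
      ∀ z : JZero p, (∀ σ : GQ, σ • z = z) → ∀ k : ℕ,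
        ∃ R : JZero p, r ^ k • R = n • z ∧ ∀ σ ∈ A.inertiaSubgroupIn ℚ, σ • R = R := by
  obtain ⟨A, hA, hDIV, hE1, hE3, hTB, hBOB⟩ := hex
  exact ⟨A, hA, locpStar_of_leaves hA hDIV hE1 hE3 hTB hBOB⟩

end Fermat.Agent.GZ.LocP.Top
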