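/-
GATE-Z / GZ-LOCP (helper12): **(b) from its exponent form (b')**.

`ExpHyp p A h r` (b') : `∃ c > 0, ∀ k, ∀ v ∈ J₀(p)[r^k]^{I_A}, c • v ∈ M0mod p A h (r^k)` — the natural
output of the CASE A chain (A2 descent, `ν`/`etaQ` bookkeeping, NODE36, A5 at level `p`).

`bobHyp_of_expHyp` : (b') ⟹ `Top.BOBHyp p A h r` with `c₂ := c ^ (2 g)`:
`#V^I ≤ #J[c] · #(c • V^I) ≤ c^(2g) · #T` (`GH/TorsionCount.natCard_torsion_JZero`).
-/
import Fermat.Agent.GZ.LocP.Top

set_option autoImplicit false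
set_option linter.unusedSectionVars false

noncomputable section

namespace Fermat.Agent.GZ.LocP.BobOfExp

open AlgebraicCurve ModularCurve
open Fermat.Agent.GS.F Fermat.Agent.GK.AL Fermat.Agent.GJ.KumGroup
open Fermat.Agent.GH.TorsionCount Fermat.Agent.GZ.LocP.Top

/-- `ℚ̄` -/
local notation "Qb" => AlgebraicClosure ℚ
/-- `G_ℚ` -/
local notation "GQ" => (AlgebraicClosure ℚ ≃ₐ[ℚ] AlgebraicClosure ℚ)

variable (p : ℕ) [NeZero p] (A : ValuationSubring Qb) (h : ExactDvd p p) (r : ℕ) [NeZero r]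

/-- **(b')** the exponent form of (b): a fixed multiple of every inertia-invariant `r^k`-torsion
class is toric. -/
def ExpHyp : Prop :=
  ∃ c : ℕ, 0 < c ∧ ∀ k : ℕ, ∀ v : JZero p, r ^ k • v = 0 →
    (∀ σ ∈ A.inertiaSubgroupIn ℚ, σ • v = v) → c • v ∈ M0mod p A h (r ^ k)

/-- the inertia-invariant `m`-torsion, as a subgroup -/
def invTors (m : ℕ) : AddSubgroup (JZero p) where
  carrier := {v | m • v = 0 ∧ ∀ σ ∈ A.inertiaSubgroupIn ℚ, σ • v = v}
  zero_mem' := ⟨nsmul_zero m, fun σ _ => gal_zero σ⟩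
  add_mem' {a b} ha hb := by
    refine ⟨by rw [nsmul_add, ha.1, hb.1, add_zero], fun σ hσ => ?_⟩
    rw [smul_add, ha.2 σ hσ, hb.2 σ hσ]
  neg_mem' {a} ha := by
    refine ⟨by rw [neg_nsmul, ha.1, neg_zero], fun σ hσ => ?_⟩
    rw [smul_neg, ha.2 σ hσ]

variable {p A h r}

theorem mem_invTors {m : ℕ} {v : JZero p} :
    v ∈ invTors p A m ↔ m • v = 0 ∧ ∀ σ ∈ A.inertiaSubgroupIn ℚ, σ • v = v := Iff.rfl

/-- **(b') ⟹ (b)**. -/
theorem bobHyp_of_expHyp (hexp : ExpHyp p A h r) : BOBHyp p A h r := by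
  obtain ⟨c, hc, hexp⟩ := hexp
  have hc0 : c ≠ 0 := hc.ne'
  refine ⟨c ^ (2 * genus p), fun k => ?_⟩
  have hm0 : r ^ k ≠ 0 := pow_ne_zero k (NeZero.ne r)
  have hfinV : Finite ↥(Pic0.torsion Qb (FK p) (r ^ k)) := finite_torsion p (r ^ k) hm0
  have hfinC : Finite ↥(Pic0.torsion Qb (FK p) c) := finite_torsion p c hc0
  have hT : ∀ v : JZero p, r ^ k • v = 0 → v ∈ Pic0.torsion Qb (FK p) (r ^ k) := fun v hv => by
    refine Pic0.mem_torsion.2 ?_
    rwa [natCast_zsmul]
  -- the subtype of the statement is the subgroup `invTors`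
  show Nat.card ↥(invTors p A (r ^ k)) ≤ _
  have hfinW : Finite ↥(invTors p A (r ^ k)) :=
    Finite.of_injective (fun v => (⟨v.1, hT v.1 v.2.1⟩ : ↥(Pic0.torsion Qb (FK p) (r ^ k))))
      (fun a b hab => Subtype.ext (by have := congrArg Subtype.val hab; exact this))
  have hfinT : Finite ↥(M0mod p A h (r ^ k)) :=
    Finite.of_injective
      (fun v => (⟨v.1, M0_le_torsion (r ^ k) v.2⟩ : ↥(Pic0.torsion Qb (FK p) (r ^ k))))
      (fun a b hab => Subtype.ext (by have := congrArg Subtype.val hab; exact this))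
  -- multiplication by `c` : `V^I → T`
  let φ : ↥(invTors p A (r ^ k)) →+ ↥(M0mod p A h (r ^ k)) :=
    { toFun := fun v => ⟨c • (v : JZero p), hexp k v v.2.1 v.2.2⟩
      map_zero' := by
        apply Subtype.ext
        show c • ((0 : ↥(invTors p A (r ^ k))) : JZero p) = 0
        rw [AddSubgroup.coe_zero, nsmul_zero]
      map_add' := fun a b => by
        apply Subtype.ext
        show c • ((a + b : ↥(invTors p A (r ^ k))) : JZero p) = c • (a : JZero p) + c • (b : JZero p)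
        rw [AddSubgroup.coe_add, nsmul_add] }
  have h1 : Nat.card ↥(invTors p A (r ^ k)) =
      Nat.card (↥(invTors p A (r ^ k)) ⧸ φ.ker) * Nat.card φ.ker :=
    AddSubgroup.card_eq_card_quotient_mul_card_addSubgroup _
  have h2 : Nat.card (↥(invTors p A (r ^ k)) ⧸ φ.ker) = Nat.card φ.range :=
    Nat.card_congr (QuotientAddGroup.quotientKerEquivRange φ).toEquiv
  have h3 : Nat.card φ.range ≤ Nat.card ↥(M0mod p A h (r ^ k)) :=
    Nat.card_le_card_of_injective (fun x => (x : ↥(M0mod p A h (r ^ k)))) Subtype.val_injective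
  have h4 : Nat.card φ.ker ≤ c ^ (2 * genus p) := by
    have hcard := natCard_torsion_JZero p c hc0
    have hcard' : Nat.card ↥(Pic0.torsion Qb (FK p) c) = c ^ (2 * genus p) := hcard
    rw [← hcard']
    refine Nat.card_le_card_of_injective
      (fun v => (⟨((v : ↥(invTors p A (r ^ k))) : JZero p), ?_⟩ : ↥(Pic0.torsion Qb (FK p) c)))
      (fun a b hab => Subtype.ext (Subtype.ext
        (by have := congrArg Subtype.val hab; exact this)))
    refine Pic0.mem_torsion.2 ?_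
    rw [natCast_zsmul]
    have hv : φ (v : ↥(invTors p A (r ^ k))) = 0 := v.2
    have := congrArg (fun x : ↥(M0mod p A h (r ^ k)) => (x : JZero p)) hv
    exact this
  rw [h1, h2, mul_comm]
  exact Nat.mul_le_mul h4 h3

end Fermat.Agent.GZ.LocP.BobOfExp
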