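/-
GATE-Z (S15) / node (LOCP*), leaf (E1) of helper12's RULING 5926 (helper99):
**inertia moves every `m`-th root of a RATIONAL class into the toric part `M⁰_m`.**

For `σ` in the inertia group of `A ∣ q` and `R : J₀(N)(ℚ̄)` with `m • R` fixed by `G_ℚ`,
`σ • R - R ∈ M⁰_m` — the NON-TORSION version of `GS/F/M0.smul_sub_mem_M0` (helper30) /
`GS/F/Modular.smul_sub_mem_M0mod`; proof of helper31 5869 (E1):
`m • R = [D₀]` with `D₀` a `G_ℚ`-stable divisor (`GR/W/RatRep.exists_rational_effective_rep`),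
`R = [D']`, `m • D' - D₀ = div f`; then `m • (σ D' - D') = div (σ f / f)` and, after scaling `f` by
ONE constant, `σ f / f` has constant reduction for both Gauss valuations (the body of
`GK/SS/GalSide.norm_goodUnits`, which never uses `m ∣ div u`).

* `isCstUnit_gal_div`             : `norm_goodUnits` for an ARBITRARY unit `u` (no divisibility);
* `smul_sub_mem_M0_of_rational`   : (E1) for an abstract pair `V1 V2 : GalVal N A`;
* `smul_sub_mem_M0mod_of_rational`: **(E1)** for `M0mod N A h m`, VERBATIM as in 5926;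
* `smul_sub_mem_M0mod_of_mem_fixedPoints` : the same for `m • R ∈ FixedPoints.addSubgroup G_ℚ J`.
-/
import Fermat.Agent.GS.F.Modular
import Fermat.Agent.GR.W.RatRep

set_option autoImplicit false

noncomputable section

namespace Fermat.Agent.GZ.LocP.E1

open AlgebraicCurve ModularCurve Fermat.Agent.GJ.KumGroup Fermat.Agent.GH.KummerPic
open Fermat.Agent.GK.SS Fermat.Agent.GJ.Kum.KumType Fermat.Agent.GH.TorsionCount
open Fermat.Agent.GK.Tate Fermat.Agent.GJ.Kum.DivBasic Fermat.Agent.GK.AL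
open Fermat.Agent.GS.F Fermat.Agent.GR.W.RatRep

/-- `ℚ̄`. -/
local notation "Qb" => AlgebraicClosure ℚ
local notation "GQ" => (AlgebraicClosure ℚ ≃ₐ[ℚ] AlgebraicClosure ℚ)

variable {N : ℕ} [NeZero N] {A : ValuationSubring Qb}

omit [NeZero N] in
/-- **`norm_goodUnits` without divisibility**: after scaling by ONE constant, `σ u / u` has
constant reduction for both valuations, for every `σ` in the inertia group and EVERY unit `u`. -/
theorem isCstUnit_gal_div (V1 V2 : GalVal N A) {q : ℕ} (hq : q.Prime) (hA : A.LiesOverPrime q)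
    (u : (FK N)ˣ) :
    ∃ c ∈ cstUnits N, ∀ σ ∈ A.inertiaSubgroupIn ℚ,
      V1.IsCstUnit ((galUnits N σ (c * u) / (c * u) : (FK N)ˣ) : FK N) ∧
        V2.IsCstUnit ((galUnits N σ (c * u) / (c * u) : (FK N)ˣ) : FK N) := by
  obtain ⟨c1, hc1, h1, h1'⟩ := V1.unram (u : FK N) u.ne_zero
  obtain ⟨c2, hc2, h2, h2'⟩ := V2.unram (u : FK N) u.ne_zero
  set c : (FK N)ˣ :=
    Units.map ((algebraMap Qb (FK N) : Qb →+* FK N) : Qb →* FK N) (Units.mk0 c1 hc1) with hc
  have hcmem : c ∈ cstUnits N := ⟨_, rfl⟩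
  have hcval : ((c * u : (FK N)ˣ) : FK N) = algebraMap Qb (FK N) c1 * (u : FK N) := rfl
  refine ⟨c, hcmem, fun σ hσ => ⟨?_, ?_⟩⟩
  · -- `w₁`
    rw [Units.val_div_eq_div_val, coe_galUnits, hcval]
    have hw0 : algebraMap Qb (FK N) c1 * (u : FK N) ≠ 0 :=
      mul_ne_zero ((map_ne_zero_iff _ (algebraMap Qb (FK N)).injective).2 hc1) u.ne_zero
    have := GalVal.val_gal_div_sub_one_lt (V := V1) hσ h1 h1' hw0
    exact ⟨1, map_one _, by rwa [map_one]⟩
  · -- `w₂`
    rw [Units.val_div_eq_div_val, coe_galUnits, hcval]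
    have hdec := Fermat.Agent.S05.mem_decompositionSubgroup_of_mem_inertiaSubgroupIn hσ
    set w2 : FK N := algebraMap Qb (FK N) c2 * (u : FK N) with hw2
    have hw20 : w2 ≠ 0 :=
      mul_ne_zero ((map_ne_zero_iff _ (algebraMap Qb (FK N)).injective).2 hc2) u.ne_zero
    set d : Qb := c1 / c2 with hd
    have hd0 : d ≠ 0 := div_ne_zero hc1 hc2
    have e1 : algebraMap Qb (FK N) c1 * (u : FK N) = algebraMap Qb (FK N) d * w2 := by
      rw [hw2, hd, map_div₀]
      have : algebraMap Qb (FK N) c2 ≠ 0 :=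
        (map_ne_zero_iff _ (algebraMap Qb (FK N)).injective).2 hc2
      field_simp
    have e2 : arithmeticRingAut (modularFunctionFieldFull N) σ
        (algebraMap Qb (FK N) c1 * (u : FK N)) / (algebraMap Qb (FK N) c1 * (u : FK N)) =
        algebraMap Qb (FK N) (σ d / d) *
          (arithmeticRingAut (modularFunctionFieldFull N) σ w2 / w2) := by
      rw [e1, map_mul, arithmeticRingAut_algebraMap, mul_div_mul_comm, ← map_div₀]
    rw [e2]
    have hval : A.valuation (σ d / d) = 1 := by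
      rw [map_div₀, Fermat.Agent.S13.Branch.valuation_apply_eq_of_mem_decomposition A hq hA hdec d]
      exact div_self ((Valuation.ne_zero_iff _).2 hd0)
    refine (V2.isCstUnit_const hval).mul ?_
    have := GalVal.val_gal_div_sub_one_lt (V := V2) hσ h2 h2' hw20
    exact ⟨1, map_one _, by rwa [map_one]⟩

omit [NeZero N] in
/-- the order of `σ x` at `v` is the order of `x` at `σ⁻¹ v`. -/
theorem ord_arithmeticRingAut (σ : GQ) (v : Place Qb (FK N)) (x : FK N) :
    v.ord (arithmeticRingAut (modularFunctionFieldFull N) σ x) =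
      ((arithmeticGalois (modularFunctionFieldFull N) σ)⁻¹ • v).ord x := by
  have h := SemilinearAut.ord_smul (arithmeticGalois (modularFunctionFieldFull N) σ)
    ((arithmeticGalois (modularFunctionFieldFull N) σ)⁻¹ • v) x
  rw [smul_inv_smul] at h
  exact h

omit [NeZero N] in
/-- the divisor of `σ w / w` for a function `w` whose divisor is `m • D' - D0 + (constant)` with
`D0` fixed by `g = σ`. -/
theorem ord_gal_div_aux (σ : GQ) (g : SemilinearAut Qb (FK N))
    (hg : g = arithmeticGalois (modularFunctionFieldFull N) σ) {m : ℕ}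
    (D' D0 : Divisor Qb (FK N)) (hgD0 : g • D0 = D0) (w : FK N) (hw0 : w ≠ 0)
    (hw : ∀ v : Place Qb (FK N), v.ord w = (m : ℤ) * D' v - D0 v) (v : Place Qb (FK N)) :
    v.ord (arithmeticRingAut (modularFunctionFieldFull N) σ w / w) =
      (m : ℤ) * ((g • D') v - D' v) := by
  have hne' : arithmeticRingAut (modularFunctionFieldFull N) σ w ≠ 0 :=
    (map_ne_zero_iff _ (arithmeticRingAut (modularFunctionFieldFull N) σ).injective).2 hw0
  have h1 : v.ord (arithmeticRingAut (modularFunctionFieldFull N) σ w / w) =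
      v.ord (arithmeticRingAut (modularFunctionFieldFull N) σ w) - v.ord w := by
    rw [div_eq_mul_inv, v.ord_mul hne' (inv_ne_zero hw0), v.ord_inv]
    ring
  have h2 : v.ord (arithmeticRingAut (modularFunctionFieldFull N) σ w) = (g⁻¹ • v).ord w := by
    rw [hg]
    exact ord_arithmeticRingAut σ v w
  have e1 : (g • D') v = D' (g⁻¹ • v) := SemilinearAut.divisor_smul_apply g D' v
  have e2 : D0 (g⁻¹ • v) = D0 v := by
    have := SemilinearAut.divisor_smul_apply g D0 v
    rw [hgD0] at this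
    exact this.symm
  rw [h1, h2, hw (g⁻¹ • v), hw v, e1, e2]
  ring

/-- **(E1), abstract form.** -/
theorem smul_sub_mem_M0_of_rational (V1 V2 : GalVal N A) {q : ℕ} (hq : q.Prime)
    (hA : A.LiesOverPrime q) {m : ℕ} [NeZero m] {σ : GQ} (hσ : σ ∈ A.inertiaSubgroupIn ℚ)
    (R : JZero N) (hR : ∀ g : GQ, g • (m • R) = m • R) :
    σ • R - R ∈ M0 V1 V2 m := by
  have := hasPrincipalDivisors_FK N
  obtain ⟨g, hg⟩ : ∃ g : SemilinearAut Qb (FK N),
      g = arithmeticGalois (modularFunctionFieldFull N) σ := ⟨_, rfl⟩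
  -- a Galois-stable divisor of `m • R`
  obtain ⟨n, -, E, -, -, hE, hmem, hz⟩ := exists_rational_effective_rep N (m • R) hR
  obtain ⟨D0, hD0⟩ : ∃ D0 : Divisor Qb (FK N),
      D0 = E - Finsupp.single (cuspInf N) (n : ℤ) := ⟨_, rfl⟩
  have hgD0 : g • D0 = D0 := by
    rw [hD0, smul_sub, hg, hE σ, SemilinearAut.smul_single, galois_smul_cuspInf]
  have hmem0 : D0 ∈ Divisor.degZero (K := Qb) (F := FK N) := hD0 ▸ hmem
  have hz0 : m • R = Pic0.mk ⟨D0, hmem0⟩ := by
    rw [hz]
    congr 1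
    exact Subtype.ext hD0.symm
  -- a divisor of `R`
  obtain ⟨D', rfl⟩ := Pic0.mk_surjective R
  have hmk : Pic0.mk (m • D') = Pic0.mk ⟨D0, hmem0⟩ := by
    rw [← hz0]
    exact (map_nsmul (QuotientAddGroup.mk' _) m D')
  obtain ⟨f, hf0, hf⟩ := Divisor.mem_principal.mp ((mk_eq_mk_iff _ _).mp hmk.symm)
  have hfv : ∀ v : Place Qb (FK N), v.ord f = (m : ℤ) * (D' : Divisor Qb (FK N)) v - D0 v := by
    intro v
    rw [← hf v]
    show ((m • D' : Divisor.degZero (K := Qb) (F := FK N)) : Divisor Qb (FK N)) v - D0 v = _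
    rw [AddSubgroup.coe_nsmul, Finsupp.smul_apply, nsmul_eq_mul]
  -- the Kummer generator
  obtain ⟨u, hu⟩ : ∃ u : (FK N)ˣ, (u : FK N) = f := ⟨Units.mk0 f hf0, rfl⟩
  obtain ⟨c, hc, hcu⟩ := isCstUnit_gal_div V1 V2 hq hA u
  obtain ⟨a, ha⟩ := mem_cstUnits.1 hc
  obtain ⟨y, hy⟩ : ∃ y : (FK N)ˣ, y = galUnits N σ (c * u) / (c * u) := ⟨_, rfl⟩
  have hw : ((c * u : (FK N)ˣ) : FK N) = algebraMap Qb (FK N) (a : Qb) * f := by
    rw [Units.val_mul, ha, hu]
  have ha0 : algebraMap Qb (FK N) (a : Qb) ≠ 0 :=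
    (map_ne_zero_iff _ (algebraMap Qb (FK N)).injective).2 a.ne_zero
  have hordw : ∀ v : Place Qb (FK N), v.ord ((c * u : (FK N)ˣ) : FK N) =
      (m : ℤ) * (D' : Divisor Qb (FK N)) v - D0 v := by
    intro v
    rw [hw, v.ord_mul ha0 hf0, ord_algebraMap_const, zero_add, hfv]
  have hyval : ((y : (FK N)ˣ) : FK N) =
      arithmeticRingAut (modularFunctionFieldFull N) σ ((c * u : (FK N)ˣ) : FK N) /
        ((c * u : (FK N)ˣ) : FK N) := by
    rw [hy, Units.val_div_eq_div_val, coe_galUnits]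
  have hyv : ∀ v : Place Qb (FK N),
      v.ord (y : FK N) =
        (m : ℤ) * ((g • (D' : Divisor Qb (FK N))) v - (D' : Divisor Qb (FK N)) v) := by
    intro v
    rw [hyval]
    exact ord_gal_div_aux σ g hg _ D0 hgD0 _ (c * u).ne_zero hordw v
  have hypdiv : y ∈ pDivUnits Qb (FK N) m := fun v => ⟨_, hyv v⟩
  have hgood : y ∈ goodUnits V1 V2 m := by
    refine ⟨hypdiv, ?_, ?_⟩
    · rw [hy]; exact (hcu σ hσ).1
    · rw [hy]; exact (hcu σ hσ).2
  rw [mem_M0_iff]
  refine ⟨y, hgood, SemilinearAut.degZeroSMulHom g D' - D', fun v => ?_, ?_⟩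
  · rw [hyv v, AddSubgroup.coe_sub, Finsupp.sub_apply, SemilinearAut.coe_degZeroSMulHom]
  · rw [galois_smul_pic0_def, ← hg, SemilinearAut.pic0_smul_mk]
    exact (QuotientAddGroup.mk_sub _ _ _).symm

variable {q : ℕ} {h : ExactDvd q N}

/-- **(E1)** of helper12's RULING 5926, VERBATIM: for `σ` in the inertia group of `A ∣ q ∥ N` and
`R : J₀(N)(ℚ̄)` with `m • R` rational, `σ • R - R ∈ M0mod N A h m`.  Any `m ≠ 0`. -/
theorem smul_sub_mem_M0mod_of_rational (hA : A.LiesOverPrime q) {m : ℕ} [NeZero m] {σ : GQ}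
    (hσ : σ ∈ A.inertiaSubgroupIn ℚ) (R : JZero N) (hR : ∀ g : GQ, g • (m • R) = m • R) :
    σ • R - R ∈ M0mod N A h m :=
  smul_sub_mem_M0_of_rational _ _ h.prime hA hσ R hR

/-- the same with `m • R` in the frozen subgroup `FixedPoints.addSubgroup G_ℚ (J₀(N))`. -/
theorem smul_sub_mem_M0mod_of_mem_fixedPoints (hA : A.LiesOverPrime q) {m : ℕ} [NeZero m] {σ : GQ}
    (hσ : σ ∈ A.inertiaSubgroupIn ℚ) (R : JZero N)
    (hR : m • R ∈ FixedPoints.addSubgroup GQ (JZero N)) :
    σ • R - R ∈ M0mod N A h m :=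
  smul_sub_mem_M0mod_of_rational hA hσ R (fun g => hR g)

end Fermat.Agent.GZ.LocP.E1
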