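/-
GATE-Z (S15) / node GZ-LOCP, leaf (E3), modular form (helper33; helper12 RULING 5926).

(E3) in helper12's spelling, with (E1) (E2) as binders in HIS shapes and Mordell–Weil (S17) as a
binder `hFG` (discharged in `GZ/LocP/E3S17.lean`):

  `∀ k, ∃ τ ∈ I, ∀ R : JZero p, (∀ g, g • (r^k • R) = r^k • R) → τ • R = R → ∀ σ ∈ I, σ • R = R`

with `I = A.inertiaSubgroupIn ℚ`, `A | p`, `r` prime `≠ p`, `T_m = M0mod p A h m`.
-/
import Mathlib
import Fermat.Agent.GZ.LocP.E3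
import Fermat.Agent.GS.F.Modular

set_option autoImplicit false

noncomputable section

open ModularCurve AlgebraicCurve

namespace Fermat.Agent.GZ.LocP.E3

open Fermat.Agent.GS.F Fermat.Agent.GK.AL

local notation "Qb" => AlgebraicClosure ℚ
local notation "GQ" => (AlgebraicClosure ℚ ≃ₐ[ℚ] AlgebraicClosure ℚ)

/-- **(E3)**, modular form, hypothesis form: binders (E1), (E2) at the moduli `r ^ k` and
Mordell–Weil. -/
theorem e3_of_e1_e2 (p r : ℕ) [NeZero p] [Fact r.Prime] (hrp : r ≠ p)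
    (A : ValuationSubring Qb) (hA : A.LiesOverPrime p) (h : ExactDvd p p)
    (hFG : AddGroup.FG ↥(FixedPoints.addSubgroup GQ (JZero p)))
    (hE1 : ∀ (m : ℕ) [NeZero m], ∀ σ ∈ A.inertiaSubgroupIn ℚ, ∀ R : JZero p,
      (∀ g : GQ, g • (m • R) = m • R) → σ • R - R ∈ M0mod p A h m)
    (hE2 : ∀ (m : ℕ) [NeZero m], ¬ p ∣ m → ∀ σ ∈ A.inertiaSubgroupIn ℚ,
      ∀ x ∈ M0mod p A h m, σ • x = x) :
    ∀ k : ℕ, ∃ τ ∈ A.inertiaSubgroupIn ℚ, ∀ R : JZero p,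
      (∀ g : GQ, g • (r ^ k • R) = r ^ k • R) → τ • R = R →
        ∀ σ ∈ A.inertiaSubgroupIn ℚ, σ • R = R := by
  intro k
  have hr : r.Prime := Fact.out
  have hp : p.Prime := h.prime
  have : NeZero (r ^ k) := ⟨pow_ne_zero k hr.ne_zero⟩
  have hpm : ¬ p ∣ r ^ k := fun hd =>
    hrp ((Nat.prime_dvd_prime_iff_eq hp hr).1 (hp.dvd_of_dvd_pow hd)).symm
  exact exists_tame_fixer hp hrp A hA k hFG (M0mod p A h (r ^ k) : Set (JZero p))
    (fun σ hσ R hR => hE1 (r ^ k) σ hσ R hR) (fun σ hσ x hx => hE2 (r ^ k) hpm σ hσ x hx)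

end Fermat.Agent.GZ.LocP.E3
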