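/-
GATE-Z / GZ-LOCP (helper12), integrator: **`(LOCP*)` from the single remaining leaf (b)**.

All other leaves of `Top.locpStar_of_leaves` are theorems on main and are plugged here:

* (DIV) `Div.divHyp` (helper87);
* (E1)  `E1.smul_sub_mem_M0mod_of_rational` (helper99);
* (E2)  `E2.e2` (helper30) — consumed by (E3);
* (E3)  `E3.e3_of_e1_e2` (helper33) with Mordell–Weil `hFG` (= the type of `S17.result`);
* (a)   `TB.tbHyp` (helper60).

`locpStar_of_bob_fg` : level `p ≥ 5` prime, `r ≠ p` prime, `A | p`: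
`hFG → BOBHyp p A h r → ∃ n > 0, ∀ z rational, ∀ k, ∃ R, r^k • R = n • z ∧ R fixed by I_A`.
-/
import Fermat.Agent.GZ.LocP.Top
import Fermat.Agent.GZ.LocP.E1
import Fermat.Agent.GZ.LocP.E2
import Fermat.Agent.GZ.LocP.E3Main
import Fermat.Agent.GZ.LocP.TB.Leaf
import Fermat.Agent.GZ.LocP.Div

set_option autoImplicit false
set_option linter.unusedSectionVars false

noncomputable section

namespace Fermat.Agent.GZ.LocP.OfBob

open AlgebraicCurve ModularCurve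
open Fermat.Agent.GS.F Fermat.Agent.GK.AL Fermat.Agent.GZ.LocP.Top

/-- `ℚ̄` -/
local notation "Qb" => AlgebraicClosure ℚ
/-- `G_ℚ` -/
local notation "GQ" => (AlgebraicClosure ℚ ≃ₐ[ℚ] AlgebraicClosure ℚ)

/-- (E1) is a theorem. -/
theorem e1Hyp (p : ℕ) [NeZero p] (A : ValuationSubring Qb) (h : ExactDvd p p)
    (hA : A.LiesOverPrime p) : E1Hyp p A h :=
  fun _ _ _ hσ R hR => Fermat.Agent.GZ.LocP.E1.smul_sub_mem_M0mod_of_rational hA hσ R hR

/-- (E3) is a theorem, given Mordell–Weil. -/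
theorem e3Hyp (p r : ℕ) [NeZero p] [NeZero r] (hr : r.Prime) (hrp : r ≠ p)
    (A : ValuationSubring Qb) (h : ExactDvd p p) (hA : A.LiesOverPrime p)
    (hFG : AddGroup.FG ↥(FixedPoints.addSubgroup GQ (JZero p))) : E3Hyp p A r := by
  have : Fact r.Prime := ⟨hr⟩
  exact Fermat.Agent.GZ.LocP.E3.e3_of_e1_e2 p r hrp A hA h hFG (e1Hyp p A h hA)
    (fun m _ hpm σ hσ x hx => Fermat.Agent.GZ.LocP.E2.e2 A hA h m hpm σ hσ x hx)

/-- **`(LOCP*)` from (b) and Mordell–Weil**, for a fixed place `A | p`. -/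
theorem locpStar_of_bob_fg (p r : ℕ) [NeZero p] [NeZero r] (hp : p.Prime) (hp5 : 5 ≤ p)
    (hr : r.Prime) (hrp : r ≠ p) (A : ValuationSubring Qb) (h : ExactDvd p p)
    (hA : A.LiesOverPrime p)
    (hFG : AddGroup.FG ↥(FixedPoints.addSubgroup GQ (JZero p)))
    (hBOB : BOBHyp p A h r) :
    ∃ n : ℕ, 0 < n ∧ ∀ z : JZero p, (∀ σ : GQ, σ • z = z) → ∀ k : ℕ,
      ∃ R : JZero p, r ^ k • R = n • z ∧ ∀ σ ∈ A.inertiaSubgroupIn ℚ, σ • R = R := by
  have hpr : ¬ p ∣ r := fun hd => hrp ((Nat.prime_dvd_prime_iff_eq hp hr).1 hd).symm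
  exact locpStar_of_leaves hA (Fermat.Agent.GZ.LocP.Div.divHyp p) (e1Hyp p A h hA)
    (e3Hyp p r hr hrp A h hA hFG)
    (Fermat.Agent.GZ.LocP.TB.tbHyp p A h r hA (by omega) (by omega) hpr) hBOB

end Fermat.Agent.GZ.LocP.OfBob
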