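/-
GATE-Z (S15, Mazur block) / (LOC-p) leaf (DIV), FULL form (helper87; consumer: helper67
`GZ/HComm`, binder `hdiv`): **`J₀(N)(ℚ̄)` is a divisible group.**

`exists_nsmul_eq N m hm z : ∃ R : JZero N, m • R = z` for every `m ≠ 0` and EVERY class `z`
(no rationality).  `divisible N : ∀ z (m : ℕ), 0 < m → ∃ R, m • R = z` is the `hdiv` binder of
`GZ/HComm.eq_zero_on_fixed` / `commute_on_fixed` verbatim.

Proof: as in `GZ/LocP/Div` (auxiliary good prime `ℓ`, place `𝒜 ∣ ℓ`), with the rational points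
replaced by the subgroup `fixedBy (σ ^ f)` of the classes fixed by a power of a Frobenius lift `σ` at
`𝒜`:
* every class has an open stabiliser (`GR/W/KummerUnr.isOpen_stabilizer_jzero`), of finite index
  in the compact group `G_ℚ`, hence contains `σ ^ f` for some `f > 0`;
* `red (σ ^ f • x) = frobAut ^ f • red x`, and the `frobAut ^ f`-fixed classes of the special fibre
  are finitely many (`GR/W/RedFinAbs.finite_fixed_pic0` for `b = frobAut ^ f`:
  `finite_frobAut_pow_fixed`);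
* `GZ/LocP/DivAbs.exists_nsmul_eq_of_red` with `MW := fixedBy (σ ^ f)`.
-/
import Fermat.Agent.GZ.LocP.Div
import Fermat.Agent.GR.W.KummerUnr

set_option autoImplicit false
set_option synthInstance.maxHeartbeats 400000
set_option maxHeartbeats 1000000

noncomputable section

open HahnSeries AlgebraicCurve ModularCurve IsLocalRing

namespace Fermat.Agent.GZ.LocP.DivFull

open Fermat.Agent.RRh45 Fermat.Agent.GR.W.RedFinAbs Fermat.Agent.GR.W.RedFinQPlace
  Fermat.Agent.GJ.S37.Frob Fermat.Agent.GR.W.RedFin Fermat.Agent.GZ.LocP.DivAbs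

local notation "Qb" => AlgebraicClosure ℚ
local notation "GQ" => (AlgebraicClosure ℚ ≃ₐ[ℚ] AlgebraicClosure ℚ)

/-! ### the special fibre: classes fixed by a power of Frobenius -/

section SpecialFibre

variable (k : Type*) [Field k] (ℓ : ℕ) [Fact ℓ.Prime] [CharP k ℓ] [PerfectRing k ℓ]
variable (N : ℕ)

/-- **the classes of the special fibre fixed by `Frob ^ f` are finitely many** (`f > 0`). -/
theorem finite_frobAut_pow_fixed [IsAlgClosed k]
    [FiniteResidues k (modularFunctionFieldFullC k N)]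
    [HasPrincipalDivisors k (modularFunctionFieldFullC k N)] (f : ℕ) (hf : 0 < f) :
    {x : JZeroC k N | frobAut k ℓ N ^ f • x = x}.Finite := by
  refine finite_fixed_pic0 (frobAut k ℓ N ^ f)
    (qPlaceC k (modularFunctionFieldFullC k N) (exists_order_ne_zero k N))
    (pow_smul_eq_of_smul_eq (smul_qPlaceC k _ _ _ (order_frobAut_smul k ℓ N)) f)
    (fun Q => by
      have : Module.Finite k Q.ResidueField := FiniteResidues.finite Q
      exact Q.deg_eq_one_of_isAlgClosed_of_finite) (jElt k N) (jElt_ne_algebraMap k N)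
    (pow_smul_eq_of_smul_eq (frobAut_smul_jElt k ℓ N) f) fun m hm => ?_
  rw [baseAut_pow, baseAut_frobAut, ← pow_mul]
  exact finite_fixed_frobeniusEquiv_pow k ℓ (f * m) (Nat.mul_pos hf hm)

end SpecialFibre

/-! ### the frozen setting -/

section Frozen

variable (N : ℕ)

/-- the classes fixed by one element `g` of `G_ℚ`. -/
def fixedBy (g : GQ) : AddSubgroup (JZero N) where
  carrier := {x | g • x = x}
  add_mem' := by
    intro a b ha hb
    show g • (a + b) = a + b
    rw [smul_add, show g • a = a from ha, show g • b = b from hb]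
  zero_mem' := smul_zero g
  neg_mem' := by
    intro a ha
    show g • (-a) = -a
    rw [smul_neg, show g • a = a from ha]

theorem mem_fixedBy {g : GQ} {x : JZero N} : x ∈ fixedBy N g ↔ g • x = x := Iff.rfl

variable [NeZero N]

/-- some positive power of any `σ ∈ G_ℚ` fixes a given class (open stabiliser, compact group). -/
theorem exists_pow_smul_eq (z : JZero N) (σ : GQ) : ∃ f : ℕ, 0 < f ∧ σ ^ f • z = z := by
  have hopen := Fermat.Agent.GR.W.KummerUnr.isOpen_stabilizer_jzero N z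
  have hfin : Finite (GQ ⧸ MulAction.stabilizer GQ z) :=
    Subgroup.quotient_finite_of_isOpen _ hopen
  have hidx : (MulAction.stabilizer GQ z).index ≠ 0 := Subgroup.index_ne_zero_of_finite
  obtain ⟨f, hf, -, hmem⟩ := Subgroup.exists_pow_mem_of_index_ne_zero hidx σ
  exact ⟨f, hf, MulAction.mem_stabilizer_iff.1 hmem⟩

/-- **REDFIN for `Frob ^ f`-fixed classes**: the image under `reductionModL 𝒜 N` of the classes fixed
by a positive power of a Frobenius lift is finite. -/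
theorem finite_image_fixedBy {ℓ : ℕ} (hℓ : ℓ.Prime) (hℓN : ¬ ℓ ∣ N) (h2 : ℓ = 2 → 3 ∣ N)
    (h3 : ℓ = 3 → 2 ∣ N) (𝒜 : ValuationSubring Qb) (h𝒜 : 𝒜.LiesOverPrime ℓ)
    {σ : GQ} (hσ : 𝒜.IsFrobeniusAt σ ℓ) (f : ℕ) (hf : 0 < f) :
    ((reductionModL 𝒜 N) '' (fixedBy N (σ ^ f) : Set (JZero N))).Finite := by
  obtain ⟨h, huniq⟩ := Fermat.Agent.GJ.S37LSpaceGate.levelPackage N hℓ hℓN h2 h3 𝒜 h𝒜
  have : Fact ℓ.Prime := ⟨hℓ⟩
  have : CharP (ResidueField 𝒜) ℓ := Fermat.Agent.GJ.Kum.charP_residueField 𝒜 hℓ h𝒜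
  have : IsAlgClosed (ResidueField 𝒜) :=
    Fermat.Agent.GJ.ResidueAlgClosed.instIsAlgClosedResidueField 𝒜
  have : FiniteResidues (ResidueField 𝒜) (modularFunctionFieldFullC (ResidueField 𝒜) N) :=
    Fermat.Agent.GJ.FF.Fibre.finiteResidues_fibre (k := ResidueField 𝒜) N 𝒜 (residue 𝒜)
  have : HasPrincipalDivisors (ResidueField 𝒜) (modularFunctionFieldFullC (ResidueField 𝒜) N) :=
    Fermat.Agent.GJ.FF.Fibre.hasPrincipalDivisors_fibre' (k := ResidueField 𝒜) N 𝒜 (residue 𝒜)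
  -- `red (σ ^ i • x) = frobAut ^ i • red x`
  have hpow : ∀ (i : ℕ) (x : JZero N), reductionModL 𝒜 N (σ ^ i • x) =
      frobAut (ResidueField 𝒜) ℓ N ^ i • reductionModL 𝒜 N x := by
    intro i
    induction i with
    | zero => intro x; rw [pow_zero, pow_zero, one_smul, one_smul]
    | succ i ih =>
      intro x
      rw [pow_succ', pow_succ', mul_smul, mul_smul,
        Fermat.Agent.GJ.S37Uniq2.reductionModL_smul_of_frobenius_of_uniq h huniq
          (frobAut (ResidueField 𝒜) ℓ N) (fun g => coe_frobAut_smul (ResidueField 𝒜) ℓ N g) hσ, ih]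
  refine (finite_frobAut_pow_fixed (ResidueField 𝒜) ℓ N f hf).subset ?_
  rintro _ ⟨x, hx, rfl⟩
  have hx' : σ ^ f • x = x := hx
  show frobAut (ResidueField 𝒜) ℓ N ^ f • reductionModL 𝒜 N x = reductionModL 𝒜 N x
  rw [← hpow f x, hx']

/-- **(DIV), full form**: `J₀(N)(ℚ̄)` is divisible. -/
theorem exists_nsmul_eq (N : ℕ) [NeZero N] (m : ℕ) (hm : m ≠ 0) (z : JZero N) :
    ∃ R : JZero N, m • R = z := by
  have hN : 0 < N := Nat.pos_of_ne_zero (NeZero.ne N)
  have hm0 : 0 < m := Nat.pos_of_ne_zero hm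
  obtain ⟨ℓ, hℓge, hℓ⟩ := Nat.exists_infinite_primes (max 5 (N * m) + 1)
  have h5 : 5 ≤ ℓ := by
    have := le_max_left 5 (N * m); omega
  have hNm : N * m < ℓ := by
    have := le_max_right 5 (N * m); omega
  have hNℓ : N < ℓ := lt_of_le_of_lt (Nat.le_mul_of_pos_right N hm0) hNm
  have hmℓ' : m < ℓ := lt_of_le_of_lt (Nat.le_mul_of_pos_left m hN) hNm
  have hℓN : ¬ ℓ ∣ N := fun h => absurd (Nat.le_of_dvd hN h) (not_le.mpr hNℓ)
  have hmℓ : ¬ ℓ ∣ m := fun h => absurd (Nat.le_of_dvd hm0 h) (not_le.mpr hmℓ')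
  obtain ⟨𝒜, h𝒜⟩ := Fermat.Agent.Common_helper32.exists_liesOverPrime ℓ hℓ
  obtain ⟨σ, hσ⟩ := Fermat.Agent.S54_helper34.exists_isFrobeniusAt 𝒜 ℓ hℓ h𝒜
  obtain ⟨f, hf, hfz⟩ := exists_pow_smul_eq N z σ
  haveI : Fact ℓ.Prime := ⟨hℓ⟩
  refine exists_nsmul_eq_of_red (reductionModL 𝒜 N) (fixedBy N (σ ^ f))
    (finite_image_fixedBy N hℓ hℓN (fun h => by omega) (fun h => by omega) 𝒜 h𝒜 hσ f hf) hℓ ?_ ?_
    hm hmℓ ((mem_fixedBy N).2 hfz)
  · intro M hM hMℓ x hx
    exact Fermat.Agent.GZ.LocP.Div.exists_nsmul_of_mem_ker hℓN (fun h => by omega)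
      (fun h => by omega) h𝒜 hM hMℓ x hx
  · intro n m' hn hm' t ht
    exact Fermat.Agent.GZ.LocP.Div.exists_nsmul_eq_of_torsion N hn hm' ht

/-- the `hdiv` binder of `GZ/HComm` verbatim. -/
theorem divisible (N : ℕ) [NeZero N] :
    ∀ (z : JZero N) (m : ℕ), 0 < m → ∃ R : JZero N, m • R = z :=
  fun z m hm => exists_nsmul_eq N m hm.ne' z

end Frozen

end Fermat.Agent.GZ.LocP.DivFull
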