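/-
GATE-Z (S15) / node GZ-LOCP, leaf (E3) (helper33; helper12 RULING 5926, design helper31 5869):
THE TAME GENERATOR.

`J = JZero p`, `A | p` a place of `ℚ̄`, `I = A.inertiaSubgroupIn ℚ`, `r` a prime `≠ p`, `m = r ^ k`.
`Mt := {R : J | m • R is G_ℚ-fixed}` (the `m`-division points of the rational classes).

(E3)  `∃ τ ∈ I, ∀ R ∈ Mt, τ • R = R → ∀ σ ∈ I, σ • R = R`.

Proof.  `Mt` is a finitely generated group (`m • · : Mt → MW` has finite kernel `J[m]` and `MW` is
finitely generated: S17), stable under `G_ℚ`, and every class has a stabiliser of finite level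
(`GR/W/KummerUnr.hasLevel_smul_jzero`); so `f : G_ℚ → Perm Mt` factors through a finite level.  By
(E1) `σ • R - R ∈ T` and (E2) `σ` fixes `T` pointwise (`σ ∈ I`), `σ ^ j • R = R + j • (σ • R - R)`,
and `m • (σ • R - R) = 0` because `m • R` is rational: `f σ ^ m = 1`, the image of `I` is an
`r`-group, and `r ≠ p`: tame inertia is pro-cyclic (`GP/Loc/TamePQuot`).

* `pow_smul_eq_add_nsmul`, `comap_nsmul_fg` : abstract lemmas (Mathlib only);
* `divRat p m`            : the subgroup `Mt`;
* `exists_tame_fixer`     : (E3) with `T` an abstract set and MW f.g. as a binder;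
-/
import Mathlib
import Fermat.Agent.GR.W.KummerUnr
import Fermat.Agent.GP.Loc.TamePQuot
import Fermat.Agent.GH.TorsionLevel

set_option autoImplicit false

noncomputable section

open ModularCurve AlgebraicCurve

namespace Fermat.Agent.GZ.LocP.E3

local notation "Qb" => AlgebraicClosure ℚ
local notation "GQ" => (AlgebraicClosure ℚ ≃ₐ[ℚ] AlgebraicClosure ℚ)

/-! ### abstract lemmas -/

section Abstract

variable {G J : Type*} [Group G] [AddCommGroup J] [DistribMulAction G J]

theorem smul_nsmul_comm' (σ : G) (j : ℕ) (x : J) : σ • (j • x) = j • (σ • x) :=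
  map_nsmul (DistribSMul.toAddMonoidHom J σ) j x

/-- iterates of an element acting unipotently on `R`. -/
theorem pow_smul_eq_add_nsmul (σ : G) (R : J) (h : σ • (σ • R - R) = σ • R - R) (j : ℕ) :
    σ ^ j • R = R + j • (σ • R - R) := by
  induction j with
  | zero => simp
  | succ j ih =>
    rw [pow_succ', mul_smul, ih, smul_add, smul_nsmul_comm', h, succ_nsmul]
    abel

/-- the preimage of a finitely generated subgroup under multiplication by `m` is finitely generated
when the `m`-torsion is finite. -/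
theorem comap_nsmul_fg (MW : AddSubgroup J) (hMW : MW.FG) (m : ℕ)
    [Finite (Submodule.torsionBy ℤ J (m : ℤ))] :
    (MW.comap (nsmulAddMonoidHom m : J →+ J)).FG := by
  set Mt : AddSubgroup J := MW.comap (nsmulAddMonoidHom m : J →+ J) with hMt
  set s : Submodule ℤ J := AddSubgroup.toIntSubmodule Mt with hs
  have hsfg : s.FG := by
    let f : J →ₗ[ℤ] J := LinearMap.lsmul ℤ J (m : ℤ)
    have hf : ∀ x : J, f x = m • x := fun x => by
      show (m : ℤ) • x = m • x
      exact natCast_zsmul x m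
    refine Submodule.fg_of_fg_map_of_fg_inf_ker f ?_ ?_
    · have hMWs : (AddSubgroup.toIntSubmodule MW).FG :=
        (Submodule.fg_iff_addSubgroup_fg _).2 (by simpa using hMW)
      refine Submodule.FG.of_le hMWs ?_
      rintro _ ⟨x, hx, rfl⟩
      have hx' : x ∈ Mt := hx
      rw [hf]
      exact hx'
    · have hT : (Submodule.torsionBy ℤ J (m : ℤ)).FG := Submodule.FG.of_finite
      refine Submodule.FG.of_le hT ?_
      rintro x ⟨-, hx⟩
      rw [Submodule.mem_torsionBy_iff]
      exact hx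
  have := (Submodule.fg_iff_addSubgroup_fg s).1 hsfg
  simpa [hs] using this

end Abstract

/-! ### the division points of the rational classes -/

set_option linter.unusedSectionVars false

variable (p : ℕ) [NeZero p]

/-- `Mt`: the classes `R` with `m • R` rational. -/
def divRat (m : ℕ) : AddSubgroup (JZero p) :=
  (FixedPoints.addSubgroup GQ (JZero p)).comap (nsmulAddMonoidHom m : JZero p →+ JZero p)

theorem mem_divRat {m : ℕ} {R : JZero p} :
    R ∈ divRat p m ↔ ∀ g : GQ, g • (m • R) = m • R := Iff.rfl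

variable {p}

theorem smul_nsmul_jzero (g : GQ) (m : ℕ) (R : JZero p) : g • (m • R) = m • (g • R) :=
  smul_nsmul_comm' g m R

theorem smul_mem_divRat {m : ℕ} (g : GQ) {R : JZero p} (hR : R ∈ divRat p m) :
    g • R ∈ divRat p m := by
  rw [mem_divRat] at hR ⊢
  intro g'
  rw [← smul_nsmul_jzero g m R, hR g, hR g']

/-- the permutation representation of `G_ℚ` on `Mt`. -/
def permHom (m : ℕ) : GQ →* Equiv.Perm ↥(divRat p m) where
  toFun g :=
    { toFun := fun R => ⟨g • (R : JZero p), smul_mem_divRat g R.2⟩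
      invFun := fun R => ⟨g⁻¹ • (R : JZero p), smul_mem_divRat g⁻¹ R.2⟩
      left_inv := fun R => Subtype.ext (inv_smul_smul g (R : JZero p))
      right_inv := fun R => Subtype.ext (smul_inv_smul g (R : JZero p)) }
  map_one' := by
    ext R
    show (1 : GQ) • (R : JZero p) = R
    exact one_smul _ _
  map_mul' g g' := by
    ext R
    show (g * g') • (R : JZero p) = g • g' • (R : JZero p)
    exact mul_smul g g' _

@[simp]
theorem permHom_apply (m : ℕ) (g : GQ) (R : ↥(divRat p m)) :
    ((permHom m g R : ↥(divRat p m)) : JZero p) = g • (R : JZero p) := rfl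

theorem permHom_eq_one_iff (m : ℕ) (g : GQ) :
    permHom (p := p) m g = 1 ↔ ∀ R ∈ divRat p m, g • R = R := by
  constructor
  · intro h R hR
    have := congrArg (fun e : Equiv.Perm ↥(divRat p m) => ((e ⟨R, hR⟩ : ↥(divRat p m)) : JZero p)) h
    simpa using this
  · intro h
    ext R
    exact h R R.2

/-- `Mt` is finitely generated. -/
theorem divRat_fg (hFG : AddGroup.FG ↥(FixedPoints.addSubgroup GQ (JZero p))) {m : ℕ}
    (hm : m ≠ 0) : (divRat p m).FG := by
  have : Finite (Submodule.torsionBy ℤ (JZero p) (m : ℤ)) :=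
    Fermat.Agent.GH.TorsionLevel.finite_torsionBy p m hm
  exact comap_nsmul_fg _ ((AddGroup.fg_iff_addSubgroup_fg _).1 hFG) m

open Fermat.Agent.GJ.FiniteLevel in
/-- the action of `G_ℚ` on `Mt` factors through a finite level. -/
theorem hasLevel_divRat (hFG : AddGroup.FG ↥(FixedPoints.addSubgroup GQ (JZero p))) {m : ℕ}
    (hm : m ≠ 0) : HasLevel (fun σ : GQ => ∀ R ∈ divRat p m, σ • R = R) := by
  obtain ⟨S, hS, hSfin⟩ := (AddSubgroup.fg_iff _).1 (divRat_fg hFG hm)
  have : Finite ↥S := hSfin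
  have h1 : HasLevel (fun σ : GQ => ∀ y : ↥S, σ • (y : JZero p) = y) :=
    hasLevel_forall_finite _ fun y => Fermat.Agent.GR.W.KummerUnr.hasLevel_smul_jzero p (y : JZero p)
  refine h1.mono fun σ hσ R hR => ?_
  rw [← hS] at hR
  induction hR using AddSubgroup.closure_induction with
  | mem x hx => exact hσ ⟨x, hx⟩
  | zero => exact smul_zero (A := JZero p) σ
  | add x y _ _ hx hy => rw [smul_add, hx, hy]
  | neg x _ hx => rw [smul_neg, hx]

/-! ### the tame generator -/

/-- **(E3)**, abstract target `T` of the Kummer differences: there is ONE element `τ` of the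
inertia group at `A | p` such that an `r^k`-division point of a rational class which is fixed by
`τ` is fixed by the whole inertia group. -/
theorem exists_tame_fixer (hp : p.Prime) {r : ℕ} [Fact r.Prime] (hrp : r ≠ p)
    (A : ValuationSubring Qb) (hA : A.LiesOverPrime p) (k : ℕ)
    (hFG : AddGroup.FG ↥(FixedPoints.addSubgroup GQ (JZero p)))
    (T : Set (JZero p))
    (hE1 : ∀ σ ∈ A.inertiaSubgroupIn ℚ, ∀ R : JZero p,
      (∀ g : GQ, g • (r ^ k • R) = r ^ k • R) → σ • R - R ∈ T)
    (hE2 : ∀ σ ∈ A.inertiaSubgroupIn ℚ, ∀ x ∈ T, σ • x = x) :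
    ∃ τ ∈ A.inertiaSubgroupIn ℚ, ∀ R : JZero p, (∀ g : GQ, g • (r ^ k • R) = r ^ k • R) →
      τ • R = R → ∀ σ ∈ A.inertiaSubgroupIn ℚ, σ • R = R := by
  have hr : r.Prime := Fact.out
  have hm : r ^ k ≠ 0 := pow_ne_zero k hr.ne_zero
  set f : GQ →* Equiv.Perm ↥(divRat p (r ^ k)) := permHom (r ^ k) with hf
  -- finite level
  have hlevel : ∃ L : IntermediateField ℚ Qb, FiniteDimensional ℚ L ∧
      ∀ σ : GQ, (∀ x ∈ L, σ x = x) → f σ = 1 := by
    obtain ⟨E, hE, hfix⟩ := hasLevel_divRat hFG hm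
    exact ⟨E, hE, fun σ hσ => (permHom_eq_one_iff _ σ).2 (hfix σ hσ)⟩
  -- the image of inertia is an `r`-group
  have hpg : IsPGroup r ((A.inertiaSubgroupIn ℚ).map f) := by
    rintro ⟨g, σ, hσ, rfl⟩
    refine ⟨k, Subtype.ext ?_⟩
    show f σ ^ r ^ k = 1
    rw [← map_pow, hf, permHom_eq_one_iff]
    intro R hR
    have hR' : ∀ g : GQ, g • (r ^ k • R) = r ^ k • R := (mem_divRat p).1 hR
    have hN : σ • (σ • R - R) = σ • R - R := hE2 σ hσ _ (hE1 σ hσ R hR')
    rw [pow_smul_eq_add_nsmul σ R hN, nsmul_sub, ← smul_nsmul_jzero, hR' σ, sub_self, add_zero]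
  obtain ⟨τ, hτ, hgen⟩ := Fermat.Agent.GP.Loc.TamePQuot.exists_inertia_generator_of_isPGroup A hp hA
    f hlevel r hrp hpg
  refine ⟨τ, hτ, fun R hR hτR σ hσ => ?_⟩
  obtain ⟨n, hn⟩ := hgen σ hσ
  have hfix : f τ ⟨R, hR⟩ = ⟨R, hR⟩ := Subtype.ext hτR
  have hz : (f τ ^ n) ⟨R, hR⟩ = ⟨R, hR⟩ := by
    exact Equiv.Perm.zpow_apply_eq_self_of_apply_eq_self hfix n
  have := congrArg (fun x : ↥(divRat p (r ^ k)) => (x : JZero p)) (show f σ ⟨R, hR⟩ = ⟨R, hR⟩ by
    rw [hn]; exact hz)
  exact this

end Fermat.Agent.GZ.LocP.E3
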