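/-
GATE-Z / GZ-LOCP (helper12), **FINAL: `(LOCP*)` of helper20 5806 R1, BINDER-FREE.**

`p ≥ 5` prime, `r ≠ p` prime (`r ∈ {2, 3}` allowed), `A` ANY place of `ℚ̄` over `p`,
`I_A = A.inertiaSubgroupIn ℚ`:

  `∃ n > 0, ∀ z ∈ J₀(p)(ℚ), ∀ k, ∃ R ∈ J₀(p)(ℚ̄), r^k • R = n • z ∧ ∀ σ ∈ I_A, σ • R = R`.

Torsion-only route (RULING board 5926): `R = n • R₀ - v` with `r^k • R₀ = z` (DIV, helper87),
`τ R₀ - R₀` in the toric part `M0mod` (E1, helper99), inertia trivial on the toric part (E2,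
helper30), a tame generator `τ` (E3, helper33 + Mordell–Weil S17), and
`n • M0mod ⊆ (τ - 1) J[r^k]` by COUNTING (`Abs.nd_of_card`): `#J[r^k] = (r^k)^(2g)`
(`GH/TorsionCount`), `#M0mod ≤ (r^k)^g` (TB, helper60), `#J[r^k]^{I_A} ≤ c₂ #M0mod`
(BOB: helper30, helper73, helper26, helper99; Eisenstein ideal + S16).

* `locpStar`        : for EVERY `A | p`;
* `locpStar_exists` : the `∃ A` spelling of 5806;
* `locpStar_mem`    : the same with `z ∈ FixedPoints.addSubgroup G_ℚ (JZero p)`.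
-/
import Fermat.Agent.GZ.LocP.OfBob
import Fermat.Agent.GZ.LocP.BOB.Main
import Fermat.Agent.S17
import Fermat.Agent.Common_helper32.FrobeniusExists

set_option autoImplicit false
set_option linter.unusedSectionVars false

noncomputable section

namespace Fermat.Agent.GZ.LocP.Final

open AlgebraicCurve ModularCurve
open Fermat.Agent.GK.AL Fermat.Agent.GZ.LocP.Top

/-- `ℚ̄` -/
local notation "Qb" => AlgebraicClosure ℚ
/-- `G_ℚ` -/
local notation "GQ" => (AlgebraicClosure ℚ ≃ₐ[ℚ] AlgebraicClosure ℚ)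

/-- `p ∥ p` -/
theorem exactDvd_self {p : ℕ} (hp : p.Prime) : ExactDvd p p :=
  ⟨hp, dvd_rfl, fun h => by
    have h1 := Nat.le_of_dvd hp.pos h
    have h2 := hp.one_lt
    nlinarith⟩

/-- **`(LOCP*)`, binder-free, for every place `A` over `p`.** -/
theorem locpStar (p r : ℕ) [Fact p.Prime] [Fact r.Prime] (hp5 : 5 ≤ p) (hrp : r ≠ p)
    (A : ValuationSubring Qb) (hA : A.LiesOverPrime p) :
    ∃ n : ℕ, 0 < n ∧ ∀ z : JZero p, (∀ σ : GQ, σ • z = z) → ∀ k : ℕ,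
      ∃ R : JZero p, r ^ k • R = n • z ∧ ∀ σ ∈ A.inertiaSubgroupIn ℚ, σ • R = R := by
  have hp : p.Prime := Fact.out
  have hr : r.Prime := Fact.out
  haveI : NeZero p := ⟨hp.ne_zero⟩
  haveI : NeZero r := ⟨hr.ne_zero⟩
  exact Fermat.Agent.GZ.LocP.OfBob.locpStar_of_bob_fg p r hp hp5 hr hrp A (exactDvd_self hp) hA
    (Fermat.Agent.S17.result p hp hp5)
    (Fermat.Agent.GZ.LocP.BOB.bobHyp p A (exactDvd_self hp) r hA (by omega) (by omega))

/-- **`(LOCP*)`** in the `∃ A` spelling of helper20 5806 R1. -/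
theorem locpStar_exists (p r : ℕ) [Fact p.Prime] [Fact r.Prime] (hp5 : 5 ≤ p) (hrp : r ≠ p) :
    ∃ A : ValuationSubring Qb, A.LiesOverPrime p ∧ ∃ n : ℕ, 0 < n ∧
      ∀ z : JZero p, (∀ σ : GQ, σ • z = z) → ∀ k : ℕ,
        ∃ R : JZero p, r ^ k • R = n • z ∧ ∀ σ ∈ A.inertiaSubgroupIn ℚ, σ • R = R := by
  obtain ⟨A, hA⟩ := Fermat.Agent.Common_helper32.exists_liesOverPrime p Fact.out
  exact ⟨A, hA, locpStar p r hp5 hrp A hA⟩

/-- **`(LOCP*)`** with `z` in the Mordell–Weil group `FixedPoints.addSubgroup G_ℚ (JZero p)`. -/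
theorem locpStar_mem (p r : ℕ) [Fact p.Prime] [Fact r.Prime] (hp5 : 5 ≤ p) (hrp : r ≠ p)
    (A : ValuationSubring Qb) (hA : A.LiesOverPrime p) :
    ∃ n : ℕ, 0 < n ∧ ∀ z ∈ FixedPoints.addSubgroup GQ (JZero p), ∀ k : ℕ,
      ∃ R : JZero p, r ^ k • R = n • z ∧ ∀ σ ∈ A.inertiaSubgroupIn ℚ, σ • R = R := by
  obtain ⟨n, hn, H⟩ := locpStar p r hp5 hrp A hA
  exact ⟨n, hn, fun z hz k => H z (fun σ => hz σ) k⟩

end Fermat.Agent.GZ.LocP.Final
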